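import Fermat.Agent.MFGenus.FieldDegree
import Fermat.Prelude.Def_ModularCurve_HeckeOperator

/-!
# The degree of the degeneracy embeddings

Generators of the modular function field, the Fricke involution, and the degree of the two
degeneracy embeddings.

Main result: `finrank_heckeBetaBar`.
-/

set_option autoImplicit false

noncomputable section

open CongruenceSubgroup ModularCurve IntermediateField
open UpperHalfPlane hiding I continuous_im im re
open scoped MatrixGroups

namespace Fermat.Agent.Carayol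

open Fermat.Agent.Kummer Fermat.Agent.Kummer.MeroH
open Fermat.Agent.MFGenus (FL jElt embed_jElt)

/-- Shortcut for the algebra of constants of a function field. -/
local instance (priority := 10000) algebraConstFL (L : Type*) [Field L] [Algebra ℚ L] (N : ℕ) :
    Algebra L (FL L N) := inferInstance

/-- A scalar multiple of a matrix gives the same precomposition. -/
theorem intComp_smul {M : Matrix (Fin 2) (Fin 2) ℤ} (hM : 0 < M.det) {c : ℤ} (hc : c ≠ 0)
    (h : 0 < (c • M).det) (x : MeroH) : intComp (c • M) h x = intComp M hM x := by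
  obtain ⟨f, hf, rfl⟩ := exists_rep x
  rw [intComp_mk, intComp_mk]
  refine mk_congr _ _ fun z hz => ?_
  simp only [Function.comp_apply]
  rw [moeb_intGL h hz, moeb_intGL hM hz]
  simp only [Matrix.smul_apply, smul_eq_mul]
  push_cast
  rw [mul_assoc, ← mul_add, mul_assoc, ← mul_add,
    mul_div_mul_left _ _ (Int.cast_ne_zero.2 hc)]

theorem coeffEmb_qExpand (L : Type*) [Field L] [Algebra ℚ L] (n : ℕ) [NeZero n]
    (x : LaurentSeries ℚ) : coeffEmb L (qExpand ℚ n x) = qExpand L n (coeffEmb L x) := by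
  ext k
  simp only [coeffEmb]
  by_cases hk : (n : ℤ) ∣ k
  · obtain ⟨m, rfl⟩ := hk
    rw [coeffMap_coeff, qExpand_coeff_mul, qExpand_coeff_mul, coeffMap_coeff]
  · rw [coeffMap_coeff, qExpand_coeff_of_not_dvd n _ hk, qExpand_coeff_of_not_dvd n _ hk,
      map_zero]

section Generators

variable {L : Type*} [Field L] [Algebra ℚ L] {N : ℕ}

variable (L) in
/-- `j(d τ)` as an element of the modular function field. -/
def jdElt (N d : ℕ) [NeZero d] (hd : d ∣ N) : FL L N :=
  ⟨coeffEmb L (qExpand ℚ d jq), coeffEmb_mem_laurentBaseChange L (jqd_mem_full N hd)⟩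

theorem embed_jdElt (ι : L →+* ℂ) (d : ℕ) [NeZero d] (hd : d ∣ N) :
    embed ι N (jdElt L N d hd) = jScale d (NeZero.pos d) :=
  embed_jq ι d hd

/-- A subfield containing the constants and the `j(d τ)` is everything. -/
theorem mem_of_generators (S : Subfield (FL L N)) (hc : ∀ c, algebraMap L (FL L N) c ∈ S)
    (hj : ∀ (d : ℕ) [NeZero d] (hd : d ∣ N), jdElt L N d hd ∈ S) (x : FL L N) : x ∈ S := by
  suffices h : ∀ y, y ∈ laurentBaseChange L (modularFunctionFieldFull N) →
      y ∈ S.map (algebraMap (FL L N) (LaurentSeries L)) by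
    obtain ⟨z, hz, e⟩ := Subfield.mem_map.1 (h _ x.2)
    rwa [show z = x from Subtype.ext e] at hz
  intro y hy
  rw [mem_laurentBaseChange_iff] at hy
  refine (Subfield.closure_le).2 ?_ hy
  rintro _ (⟨c, rfl⟩ | ⟨z, hz, rfl⟩)
  · exact Subfield.mem_map.2 ⟨_, hc c, rfl⟩
  · change z ∈ modularFunctionFieldFull N at hz
    rw [modularFunctionFieldFull, ← IntermediateField.mem_toSubfield,
      IntermediateField.adjoin_toSubfield] at hz
    refine (Subfield.closure_le
      (t := (S.map (algebraMap (FL L N) (LaurentSeries L))).comap (coeffEmb L))).2 ?_ hz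
    rintro _ (⟨c, rfl⟩ | ⟨d, hd, hdN, rfl⟩)
    · refine Subfield.mem_map.2 ⟨_, hc (algebraMap ℚ L c), ?_⟩
      simp [coeffEmb]
    · have := hd
      exact Subfield.mem_map.2 ⟨_, hj d hdN, rfl⟩

/-- Homomorphisms agreeing on the constants and the `j(d τ)` are equal. -/
theorem ringHom_ext_generators {R : Type*} [Field R] {φ ψ : FL L N →+* R}
    (hc : ∀ c, φ (algebraMap L (FL L N) c) = ψ (algebraMap L (FL L N) c))
    (hj : ∀ (d : ℕ) [NeZero d] (hd : d ∣ N), φ (jdElt L N d hd) = ψ (jdElt L N d hd)) :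
    φ = ψ :=
  RingHom.ext fun x => mem_of_generators (φ.eqLocusField ψ) hc (fun d _ hd => hj d hd) x

theorem jElt_eq : jElt L N = jdElt L N 1 (one_dvd N) := rfl

theorem heckeAlphaBar_jdElt [NeZero N] (ℓ : ℕ) [NeZero ℓ] (d : ℕ) [NeZero d] (hd : d ∣ N) :
    heckeAlphaBar L N ℓ (jdElt L N d hd) = jdElt L (N * ℓ) d (hd.mul_right ℓ) :=
  Subtype.ext (coe_heckeAlphaBar N ℓ _)

theorem heckeBetaBar_jdElt [NeZero N] (ℓ : ℕ) [NeZero ℓ] (d : ℕ) [NeZero d] (hd : d ∣ N) :
    heckeBetaBar L N ℓ (jdElt L N d hd) =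
      jdElt L (N * ℓ) (ℓ * d) ((mul_dvd_mul_left ℓ hd).trans (dvd_of_eq (mul_comm ℓ N))) := by
  refine Subtype.ext ?_
  change qExpand L ℓ (coeffEmb L (qExpand ℚ d jq)) = coeffEmb L (qExpand ℚ (ℓ * d) jq)
  rw [← coeffEmb_qExpand, qExpand_qExpand]

end Generators

section Fricke

variable {L : Type*} [Field L] [Algebra ℚ L] (ι : L →+* ℂ) (N : ℕ) [NeZero N]

theorem det_fricke : 0 < (!![0, -1; (N : ℤ), 0]).det := by
  rw [Matrix.det_fin_two_of]
  simpa using NeZero.pos N

theorem intComp_fricke_jScale {d e : ℕ} (hd : 0 < d) (he : 0 < e) (h : N = d * e) :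
    intComp _ (det_fricke N) (jScale d hd) = jScale e he := by
  subst h
  have hS : 0 < ((ModularGroup.S : SL(2, ℤ)) : Matrix (Fin 2) (Fin 2) ℤ).det := by
    rw [ModularGroup.S.2]; exact one_pos
  have hmat : !![(d : ℤ), 0; 0, 1] * !![0, -1; ((d * e : ℕ) : ℤ), 0] =
      (ModularGroup.S : Matrix (Fin 2) (Fin 2) ℤ) * ((d : ℤ) • !![(e : ℤ), 0; 0, 1]) := by
    ext i j
    fin_cases i <;> fin_cases j <;> simp [ModularGroup.coe_S, Matrix.mul_apply, Fin.sum_univ_two]
  have hd0 : (0 : ℤ) < d := by exact_mod_cast hd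
  have he0 : (0 : ℤ) < e := by exact_mod_cast he
  have h1 : 0 < ((d : ℤ) • !![(e : ℤ), 0; 0, 1]).det := by
    simp [Matrix.det_fin_two]; positivity
  have h2 : 0 < (!![(d : ℤ), 0; 0, 1] * !![0, -1; ((d * e : ℕ) : ℤ), 0]).det := by
    rw [Matrix.det_mul]; exact mul_pos (det_scale hd) (det_fricke _)
  rw [jScale, intComp_intComp (det_scale hd) (det_fricke _) h2,
    intComp_congr h2 (hmat ▸ h2) hmat, ← intComp_intComp hS h1, intComp_coe, slComp_jMero,
    intComp_smul (det_scale he) hd0.ne' h1]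
  rfl

include ι in
/-- The Fricke involution exchanges `j(d τ)` and `j(e τ)` for `d e = N`. -/
theorem exists_fricke :
    ∃ W : FL L N ≃+* FL L N, (∀ c, W (algebraMap L (FL L N) c) = algebraMap L (FL L N) c) ∧
      ∀ (d e : ℕ) [NeZero d] [NeZero e] (hd : d ∣ N) (he : e ∣ N), N = d * e →
        W (jdElt L N d hd) = jdElt L N e he := by
  set f := (intComp _ (det_fricke N)).comp (embed ι N)
  have hfc : ∀ c, f (algebraMap L (FL L N) c) = embed ι N (algebraMap L (FL L N) c) := fun c => by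
    simp only [f, RingHom.comp_apply, embed_algebraMap, intComp_const]
  have hfj : ∀ (d e : ℕ) [NeZero d] [NeZero e] (hd : d ∣ N) (he : e ∣ N), N = d * e →
      f (jdElt L N d hd) = embed ι N (jdElt L N e he) := fun d e _ _ hd he h => by
    simp only [f, RingHom.comp_apply, embed_jdElt]
    exact intComp_fricke_jScale N (NeZero.pos d) (NeZero.pos e) h
  have hmem : ∀ x, f x ∈ (embed ι N).fieldRange := by
    intro x
    refine mem_of_generators ((embed ι N).fieldRange.comap f) (fun c => ?_) (fun d _ hd => ?_) x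
    · exact ⟨_, (hfc c).symm⟩
    · have : NeZero (N / d) := ⟨(Nat.div_pos (Nat.le_of_dvd (NeZero.pos N) hd) (NeZero.pos d)).ne'⟩
      exact ⟨_, (hfj d (N / d) hd (Nat.div_dvd_of_dvd hd) (Nat.mul_div_cancel' hd).symm).symm⟩
  let e : FL L N ≃+* (embed ι N).fieldRange :=
    RingEquiv.ofBijective (embed ι N).rangeRestrictField
      ⟨fun a b h => embed_injective ι N (congrArg Subtype.val h), fun ⟨y, x, hx⟩ =>
        ⟨x, Subtype.ext hx⟩⟩
  let W₀ : FL L N →+* FL L N := e.symm.toRingHom.comp (f.codRestrict _ hmem)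
  have hW₀ : ∀ x, embed ι N (W₀ x) = f x := fun x =>
    congrArg Subtype.val (e.apply_symm_apply ⟨f x, hmem x⟩)
  have hWc : ∀ c, W₀ (algebraMap L (FL L N) c) = algebraMap L (FL L N) c := fun c =>
    embed_injective ι N ((hW₀ _).trans (hfc c))
  have hWj : ∀ (d e : ℕ) [NeZero d] [NeZero e] (hd : d ∣ N) (he : e ∣ N), N = d * e →
      W₀ (jdElt L N d hd) = jdElt L N e he := fun d e _ _ hd he h =>
    embed_injective ι N ((hW₀ _).trans (hfj d e hd he h))
  have hinv : W₀.comp W₀ = RingHom.id _ := by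
    refine ringHom_ext_generators (fun c => ?_) fun d _ hd => ?_
    · simp only [RingHom.comp_apply, RingHom.id_apply, hWc]
    · have : NeZero (N / d) := ⟨(Nat.div_pos (Nat.le_of_dvd (NeZero.pos N) hd) (NeZero.pos d)).ne'⟩
      have hdiv := (Nat.mul_div_cancel' hd).symm
      rw [RingHom.comp_apply, RingHom.id_apply,
        hWj d (N / d) hd (Nat.div_dvd_of_dvd hd) hdiv,
        hWj (N / d) d (Nat.div_dvd_of_dvd hd) hd (hdiv.trans (mul_comm _ _))]
  exact ⟨RingEquiv.ofRingHom W₀ W₀ hinv hinv, hWc, hWj⟩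

end Fricke

section Degree

variable {L : Type*} [Field L] [Algebra ℚ L] (ι : L →+* ℂ) (N ℓ : ℕ) [NeZero N] [NeZero ℓ]

include ι in
theorem finrank_heckeAlphaBar {k : ℕ} (h : dedekindPsi (N * ℓ) = k * dedekindPsi N) :
    @Module.finrank (FL L N) (FL L (N * ℓ)) _ _
      (heckeAlphaBar L N ℓ).toRingHom.toAlgebra.toModule = k := by
  have hL : CharZero L := charZero_of_injective_algebraMap (algebraMap ℚ L).injective
  let : Algebra (FL L N) (FL L (N * ℓ)) := (heckeAlphaBar L N ℓ).toRingHom.toAlgebra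
  let J : IntermediateField L (FL L N) := L⟮jElt L N⟯
  let J' : IntermediateField L (FL L (N * ℓ)) := L⟮jElt L (N * ℓ)⟯
  let : Algebra J (FL L (N * ℓ)) :=
    ((algebraMap (FL L N) (FL L (N * ℓ))).comp (algebraMap J (FL L N))).toAlgebra
  have : IsScalarTower J (FL L N) (FL L (N * ℓ)) := IsScalarTower.of_algebraMap_eq' rfl
  have hmap : J.map (heckeAlphaBar L N ℓ) = J' := by
    rw [IntermediateField.adjoin_map, Set.image_singleton, jElt_eq, heckeAlphaBar_jdElt]
    rfl
  let i : J ≃ₐ[L] J' := (equivMap J (heckeAlphaBar L N ℓ)).trans (equivOfEq hmap)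
  have hJ : Module.finrank J (FL L (N * ℓ)) = Module.finrank J' (FL L (N * ℓ)) :=
    Algebra.finrank_eq_of_equiv_equiv i.toRingEquiv (RingEquiv.refl _) (RingHom.ext fun x => rfl)
  have htower := Module.finrank_mul_finrank J (FL L N) (FL L (N * ℓ))
  rw [hJ, MFGenus.finrank_eq_dedekindPsi ι, MFGenus.finrank_eq_dedekindPsi ι, h,
    mul_comm k] at htower
  exact mul_left_cancel₀ (Cosets.dedekindPsi_pos (NeZero.ne N)).ne' htower

include ι in
/-- The degree of the second degeneracy embedding is the quotient of the Dedekind indices. -/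
theorem finrank_heckeBetaBar {k : ℕ} (h : dedekindPsi (N * ℓ) = k * dedekindPsi N) :
    @Module.finrank (FL L N) (FL L (N * ℓ)) _ _
      (heckeBetaBar L N ℓ).toRingHom.toAlgebra.toModule = k := by
  rw [← finrank_heckeAlphaBar (L := L) ι N ℓ h]
  obtain ⟨W, hWc, hWj⟩ := exists_fricke ι N
  obtain ⟨W', hW'c, hW'j⟩ := exists_fricke ι (N * ℓ)
  refine (@Algebra.finrank_eq_of_equiv_equiv (FL L N) (FL L (N * ℓ)) _ _
    (heckeAlphaBar L N ℓ).toRingHom.toAlgebra (FL L N) (FL L (N * ℓ)) _ _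
    (heckeBetaBar L N ℓ).toRingHom.toAlgebra W W' ?_).symm
  change (heckeBetaBar L N ℓ).toRingHom.comp W.toRingHom =
    W'.toRingHom.comp (heckeAlphaBar L N ℓ).toRingHom
  refine ringHom_ext_generators (fun c => ?_) fun d _ hd => ?_
  · simp [hWc, hW'c]
  · have : NeZero (N / d) := ⟨(Nat.div_pos (Nat.le_of_dvd (NeZero.pos N) hd) (NeZero.pos d)).ne'⟩
    have hdiv := (Nat.mul_div_cancel' hd).symm
    simp only [RingHom.comp_apply, RingEquiv.toRingHom_eq_coe, RingEquiv.coe_toRingHom,
      AlgHom.toRingHom_eq_coe, AlgHom.coe_toRingHom]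
    rw [hWj d (N / d) hd (Nat.div_dvd_of_dvd hd) hdiv, heckeBetaBar_jdElt,
      heckeAlphaBar_jdElt]
    exact (hW'j d (ℓ * (N / d)) _ _ (by
      conv_lhs => rw [hdiv]
      ring)).symm

end Degree

theorem dedekindPsi_mul_prime {q M' : ℕ} (hq : q.Prime) (hqM : M'.Coprime q) :
    dedekindPsi (q * M' * q) = q * dedekindPsi (q * M') := by
  have h2 : dedekindPsi (q ^ 2) = q * dedekindPsi q := by
    have h1 : dedekindPsi q = q + 1 := by
      simpa using Cosets.dedekindPsi_prime_pow hq 0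
    rw [Cosets.dedekindPsi_prime_pow hq 1, h1]
    ring
  rw [show q * M' * q = q ^ 2 * M' by ring,
    Cosets.dedekindPsi_mul (Nat.Coprime.pow_left 2 hqM.symm), Cosets.dedekindPsi_mul hqM.symm, h2,
    mul_assoc]

end Fermat.Agent.Carayol
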