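import Mathlib.RingTheory.Norm.Transitivity
import Mathlib.FieldTheory.PrimitiveElement
import Mathlib.FieldTheory.IsAlgClosed.AlgebraicClosure
import Mathlib.Algebra.BigOperators.Finprod

/-!
# Products over automorphisms and norms

Products over a finite group of automorphisms fixing the image of a subfield, and norms.

Main result: `exists_prod_eq_norm_pow`.
-/

set_option autoImplicit false

noncomputable section

namespace Fermat.Agent.Carayol

/-- If a finite group of automorphisms of `F` fixes the image of `A` and induces on `E` as many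
homomorphisms as the degree of `E` over `A`, the product over the group is a power of the norm. -/
theorem exists_prod_eq_norm_pow {K A E F : Type*} [Field K] [Field A] [Field E] [Field F]
    [Algebra K F] [CharZero A] (deg : A →+* E) (emb : E →+* F) (B : Subgroup (F ≃ₐ[K] F))
    (hB : (B : Set (F ≃ₐ[K] F)).Finite)
    (hfix : ∀ σ ∈ B, ∀ a, σ (emb (deg a)) = emb (deg a)) {d : ℕ} (hd : 0 < d)
    (hdeg : @Module.finrank A E _ _ deg.toAlgebra.toModule = d)
    (s : Fin d → F ≃ₐ[K] F) (hs : ∀ k, s k ∈ B)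
    (hinj : ∀ k l, (∀ x, s k (emb x) = s l (emb x)) → k = l) :
    ∃ e : ℕ, 0 < e ∧ ∀ x, ∏ᶠ σ ∈ (B : Set (F ≃ₐ[K] F)), σ (emb x) =
      emb (deg (deg.toAlgebra |> fun inst => @Algebra.norm _ _ _ _ inst x)) ^ e := by
  classical
  let := deg.toAlgebra
  let : Algebra A (AlgebraicClosure F) :=
    ((algebraMap F (AlgebraicClosure F)).comp (emb.comp deg)).toAlgebra
  have : FiniteDimensional A E := Module.finite_of_finrank_pos (hdeg ▸ hd)
  have : Fintype B := hB.fintype
  let ψ : B → (E →ₐ[A] AlgebraicClosure F) := fun σ =>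
    { (algebraMap F (AlgebraicClosure F)).comp
        ((σ.1.toAlgHom.toRingHom).comp emb) with
      commutes' := fun a => congrArg (algebraMap F (AlgebraicClosure F)) (hfix σ.1 σ.2 a) }
  have hψ : ∀ (σ : B) (x : E), ψ σ x = algebraMap F _ (σ.1 (emb x)) := fun σ x => rfl
  have hψeq : ∀ σ τ : B, ψ σ = ψ τ ↔ ∀ x, σ.1 (emb x) = τ.1 (emb x) := fun σ τ =>
    ⟨fun h x => (algebraMap F (AlgebraicClosure F)).injective
      (by simpa only [hψ] using AlgHom.congr_fun h x),
      fun h => AlgHom.ext fun x => by rw [hψ, hψ, h]⟩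
  have hsurj : Function.Surjective ψ := by
    have hs' : Function.Bijective fun k => ψ ⟨s k, hs k⟩ := by
      rw [Fintype.bijective_iff_injective_and_card, Fintype.card_fin, AlgHom.card, hdeg]
      exact ⟨fun k l h => hinj k l ((hψeq _ _).1 h), rfl⟩
    intro g
    obtain ⟨k, hk⟩ := hs'.2 g
    exact ⟨_, hk⟩
  set fib : (E →ₐ[A] AlgebraicClosure F) → Finset B := fun g => {σ : B | ψ σ = g}
  have hcard : ∀ g, (fib g).card = (fib (ψ 1)).card := by
    intro g
    obtain ⟨σ₀, rfl⟩ := hsurj g
    symm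
    refine Finset.card_bij (fun τ _ => σ₀ * τ) (fun τ hτ => ?_)
      (fun _ _ _ _ h => mul_left_cancel h) fun σ hσ => ⟨σ₀⁻¹ * σ, ?_, mul_inv_cancel_left _ _⟩
    · simp only [fib, Finset.mem_filter, Finset.mem_univ, true_and] at hτ ⊢
      rw [hψeq] at hτ ⊢
      exact fun x => congrArg σ₀.1 (hτ x)
    · simp only [fib, Finset.mem_filter, Finset.mem_univ, true_and] at hσ ⊢
      rw [hψeq] at hσ ⊢
      intro x
      exact (congrArg (σ₀⁻¹ : B).1 (hσ x)).trans (σ₀.1.symm_apply_apply _)
  refine ⟨(fib (ψ 1)).card, Finset.card_pos.2 ⟨1, by simp [fib]⟩, fun x => ?_⟩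
  apply (algebraMap F (AlgebraicClosure F)).injective
  rw [finprod_mem_eq_finite_toFinset_prod _ hB, map_prod, map_pow]
  change _ = algebraMap A (AlgebraicClosure F) (Algebra.norm A x) ^ _
  rw [Algebra.norm_eq_prod_embeddings A (AlgebraicClosure F) x, ← Finset.prod_pow]
  calc ∏ σ ∈ hB.toFinset, algebraMap F (AlgebraicClosure F) (σ (emb x))
      = ∏ σ : B, ψ σ x :=
        (Finset.prod_subtype hB.toFinset (fun σ => by simp)
          fun σ => algebraMap F (AlgebraicClosure F) (σ (emb x)))
    _ = ∏ g, ∏ σ ∈ fib g, ψ σ x := (Finset.prod_fiberwise _ _ _).symm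
    _ = ∏ g : E →ₐ[A] AlgebraicClosure F, g x ^ (fib (ψ 1)).card := by
      refine Finset.prod_congr rfl fun g _ => ?_
      rw [← hcard g, Finset.prod_congr rfl (g := fun _ => g x) fun σ hσ => ?_, Finset.prod_const]
      rw [(Finset.mem_filter.1 hσ).2]

end Fermat.Agent.Carayol
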