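import Fermat.Agent.Carayol.Bridge.Models
import Fermat.Agent.EC.Reduction.VariableChange
import Mathlib.RingTheory.Coprime.Lemmas

/-!
# The field of a full level structure inside the meromorphic functions

The field generated by the parameter and the coordinates of the torsion, the automorphisms given by
`SL(2, ℤ)`, and the functions fixed by the Borel subgroups.

Main result: `exists_sigma`.
-/

set_option autoImplicit false

noncomputable section

open Complex Filter Topology
open UpperHalfPlane hiding I
open scoped MatrixGroups Classical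

namespace Fermat.Agent.Carayol

open Fermat.Agent.Kummer Fermat.Agent.Kummer.MeroH
open WeierstrassCurve Polynomial

theorem rowAct_mul {n : ℕ} (γ δ : SL(2, ℤ)) (v : ZMod n × ZMod n) :
    rowAct (γ * δ) v = rowAct δ (rowAct γ v) := by
  ext <;> simp [rowAct, Matrix.SpecialLinearGroup.coe_mul, Matrix.mul_apply, Fin.sum_univ_two] <;>
    ring

theorem rowAct_injective {n : ℕ} (γ : SL(2, ℤ)) :
    Function.Injective (rowAct γ : ZMod n × ZMod n → ZMod n × ZMod n) := fun v w h => by
  have h' := congrArg (rowAct γ⁻¹) h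
  rw [← rowAct_mul, ← rowAct_mul, mul_inv_cancel] at h'
  simpa [rowAct] using h'

/-- The abscissa of a point, `0` at infinity. -/
def pointX {F : Type*} [Field F] {W : WeierstrassCurve F} : W.toAffine.Point → F
  | .zero => 0
  | .some x _ _ => x

namespace LevelData

variable {K F : Type*} [Field K] [Field F] [DecidableEq F] [Algebra K F]
  {fam : WeierstrassCurve ℤ[X]} {q r : ℕ} (L : LevelData K F fam q r)

/-- The invariant of the quotient by a subgroup is fixed by what stabilises the subgroup. -/
theorem apply_jQuot {σ : F ≃ₐ[K] F} (hσ : σ ∈ L.autGroup) (S : Finset (ZMod (q * r) × ZMod (q * r)))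
    (hS : ∀ v ∈ S, ∃ w ∈ S, L.act hσ (L.basis v) = L.basis w) :
    σ (jQuot L.curve S fun v => pointX (L.basis v)) =
      jQuot L.curve S fun v => pointX (L.basis v) := by
  choose π hπ hact using hS
  let e : ZMod (q * r) × ZMod (q * r) → ZMod (q * r) × ZMod (q * r) := fun v =>
    if h : v ∈ S then π v h else v
  have hinj : Set.InjOn e S := fun v hv w hw h => by
    simp only [e, Finset.mem_coe.1 hv, Finset.mem_coe.1 hw, dif_pos] at h
    apply L.injective_basis
    apply pointAct_injective σ.toAlgHom.toRingHom L.curve (L.map_curve hσ)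
    exact ((hact v hv).trans (congrArg L.basis h)).trans (hact w hw).symm
  have himg : S.image e = S := Finset.eq_of_subset_of_card_le (fun w hw => by
    obtain ⟨v, hv, rfl⟩ := Finset.mem_image.1 hw
    simpa [e, hv] using hπ v hv) (Finset.card_image_of_injOn hinj).ge
  conv_rhs => rw [← himg, jQuot_image _ _ _ hinj]
  refine (map_jQuot σ.toAlgHom.toRingHom L.curve S _).trans ?_
  rw [L.map_curve hσ]
  unfold jQuot quotG₂ quotG₃
  have hx : ∀ v ∈ S, (σ.toAlgHom.toRingHom) (pointX (L.basis v)) = pointX (L.basis (e v)) := by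
    intro v hv
    simp only [e, hv, dif_pos, ← hact v hv]
    rcases hb : L.basis v with _ | ⟨x, y, h⟩
    · rw [← Affine.Point.zero_def, map_zero]
      exact map_zero σ
    · obtain ⟨_, e'⟩ := pointAct_some σ.toAlgHom.toRingHom L.curve (L.map_curve hσ) h
      rw [LevelData.act, e']
      rfl
  congr 2 <;> exact Finset.sum_congr rfl fun v hv => by simp only [hx v hv]

/-- Decomposition of a torsion vector along `q` and `r`. -/
theorem exists_decomposition [NeZero (q * r)] (hqr : r.Coprime q)
    (v : ZMod (q * r) × ZMod (q * r)) :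
    ∃ w z : ZMod (q * r) × ZMod (q * r), v = q • w + r • z := by
  obtain ⟨x, y, hxy⟩ := Nat.isCoprime_iff_coprime.2 hqr.symm
  refine ⟨x • v, y • v, ?_⟩
  rw [← natCast_zsmul (x • v) q, ← natCast_zsmul (y • v) r, smul_smul, smul_smul, ← add_smul,
    mul_comm (q : ℤ), mul_comm (r : ℤ), hxy, one_smul]

/-- The subgroup killed by `(a, b)` is stable under the automorphisms fixing the level structure
and the lines on which it has `q`-torsion. -/
theorem stable_subTors [NeZero (q * r)] (hqr : r.Coprime q) {a b : ℕ} {σ : F ≃ₐ[K] F}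
    (hl : σ ∈ L.levelFix) (hσ : σ ∈ L.autGroup)
    (ha : a.Coprime q ∨ q ∣ a ∧ σ ∈ L.borel 0) (hb : b.Coprime q ∨ q ∣ b ∧ σ ∈ L.borel 1)
    {v : ZMod (q * r) × ZMod (q * r)} (hv : v ∈ (subTors (q * r) a b).erase 0) :
    ∃ w ∈ (subTors (q * r) a b).erase 0, L.act hσ (L.basis v) = L.basis w := by
  obtain ⟨hv0, hvm⟩ := Finset.mem_erase.1 hv
  rw [mem_subTors] at hvm
  obtain ⟨w, z, hwz⟩ := exists_decomposition hqr v
  obtain ⟨_, hfix⟩ := hl
  have hrq : (q : ZMod (q * r)) * r = 0 := by rw [← Nat.cast_mul, ZMod.natCast_self]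
  -- the two coordinates on the `q`-part
  have key : ∀ (c : ℕ) (u t : ZMod (q * r)), (c : ZMod (q * r)) * (q * u + r * t) = 0 →
      c.Coprime q → (r : ZMod (q * r)) * t = 0 := by
    intro c u t h hc
    obtain ⟨x, y, hxy⟩ := Nat.isCoprime_iff_coprime.2 hc
    have hxy' := congrArg (Int.cast : ℤ → ZMod (q * r)) hxy
    push_cast at hxy'
    have h' : (r : ZMod (q * r)) * (c * t * r) = 0 := by
      linear_combination (r : ZMod (q * r)) * h - (c : ZMod (q * r)) * u * hrq
    obtain ⟨x', y', hxy2⟩ := Nat.isCoprime_iff_coprime.2 hqr.symm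
    have hxy2' := congrArg (Int.cast : ℤ → ZMod (q * r)) hxy2
    push_cast at hxy2'
    linear_combination (x : ZMod (q * r)) * ((y' : ZMod (q * r)) * h' + x' * c * t * hrq)
      + (-(r : ZMod (q * r)) * t) * hxy'
      + (x : ZMod (q * r)) * c * t * (-(r : ZMod (q * r))) * hxy2'
      + (y : ZMod (q * r)) * t * hrq
  have comp : ∀ (i : Fin 2) (c : ℕ) (u t : ZMod (q * r)),
      (c : ZMod (q * r)) * (q * u + r * t) = 0 →
      c.Coprime q ∨ q ∣ c ∧ σ ∈ L.borel i →
      ∃ m : ZMod (q * r), (c : ZMod (q * r)) * (q * u + r * m) = 0 ∧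
        L.act hσ (L.basis (if i = 0 then ((r : ZMod (q * r)) * t, 0) else (0, r * t))) =
          L.basis (if i = 0 then ((r : ZMod (q * r)) * m, 0) else (0, r * m)) := by
    intro i c u t h hc
    rcases hc with hc | ⟨⟨k, hk⟩, hσi⟩
    · refine ⟨t, h, ?_⟩
      have ht := key c u t h hc
      simp only [ht, ite_self, ← Prod.zero_eq_mk, map_zero]
    · obtain ⟨-, hσ', hline⟩ := hσi
      have hmem : ∀ s : ZMod (q * r),
          L.basis (if i = 0 then ((r : ZMod (q * r)) * s, 0) else (0, r * s)) =
            (s.val : ℤ) • L.lineGen i := by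
        intro s
        rw [lineGen, ← map_zsmul, natCast_zsmul]
        congr 1
        split_ifs <;> simp [Prod.smul_mk, nsmul_eq_mul, mul_comm]
      have : L.act hσ (L.basis (if i = 0 then ((r : ZMod (q * r)) * t, 0) else (0, r * t))) ∈
          AddSubgroup.zmultiples (L.lineGen i) := by
        rw [← hline, hmem]
        exact AddSubgroup.mem_map_of_mem _ (zsmul_mem (AddSubgroup.mem_zmultiples _) _)
      obtain ⟨m, hm⟩ := AddSubgroup.mem_zmultiples_iff.1 this
      refine ⟨(m : ZMod (q * r)), ?_, ?_⟩
      · rw [hk] at h ⊢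
        push_cast at h ⊢
        linear_combination h + (k : ZMod (q * r)) * ((m : ZMod (q * r)) - t) * hrq
      · rw [← hm, lineGen, ← map_zsmul]
        congr 1
        split_ifs <;> simp [Prod.smul_mk, zsmul_eq_mul, mul_comm]
  have hv1 : v.1 = (q : ZMod (q * r)) * w.1 + r * z.1 := by rw [hwz]; simp [nsmul_eq_mul]
  have hv2 : v.2 = (q : ZMod (q * r)) * w.2 + r * z.2 := by rw [hwz]; simp [nsmul_eq_mul]
  obtain ⟨m₁, hm₁, hact₁⟩ := comp 0 a w.1 z.1 (hv1 ▸ hvm.1) ha
  obtain ⟨m₂, hm₂, hact₂⟩ := comp 1 b w.2 z.2 (hv2 ▸ hvm.2) hb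
  simp only [if_true, if_neg (show (1 : Fin 2) ≠ 0 by decide)] at hact₁ hact₂
  set v' : ZMod (q * r) × ZMod (q * r) :=
    q • w + (((r : ZMod (q * r)) * m₁, (r : ZMod (q * r)) * m₂))
  have hact : L.act hσ (L.basis v) = L.basis v' := by
    have e1 : v = q • w + (((r : ZMod (q * r)) * z.1, (0 : ZMod (q * r))) +
        ((0 : ZMod (q * r)), (r : ZMod (q * r)) * z.2)) := by
      rw [hwz]; ext <;> simp [nsmul_eq_mul]
    have e2 : v' = q • w + (((r : ZMod (q * r)) * m₁, (0 : ZMod (q * r))) +
        ((0 : ZMod (q * r)), (r : ZMod (q * r)) * m₂)) := by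
      simp [v']
    rw [e1, e2]
    simp only [map_add, hact₁, hact₂, hfix]
  refine ⟨v', Finset.mem_erase.2 ⟨fun h0 => hv0 ?_, mem_subTors.2 ⟨?_, ?_⟩⟩, hact⟩
  · rw [h0, map_zero] at hact
    refine (map_eq_zero_iff _ L.injective_basis).1 ?_
    exact (map_eq_zero_iff _ (pointAct_injective σ.toAlgHom.toRingHom L.curve (L.map_curve hσ))).1
      hact
  · simpa [v', nsmul_eq_mul] using hm₁
  · simpa [v', nsmul_eq_mul] using hm₂

end LevelData

/-! ### The field -/

section Field

variable {fam : WeierstrassCurve ℤ[X]} {m : ℕ} {C : VariableChange MeroH} {par : MeroH}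
  (h : IsModel fam m C par) (n : ℕ) [NeZero n]

/-- The abscissa on the member of the family. -/
def xc (C : VariableChange MeroH) (n : ℕ) [NeZero n] (v : ZMod n × ZMod n) : MeroH :=
  (xM n v - C.r) / (C.u : MeroH) ^ 2

/-- The ordinate on the member of the family. -/
def yc (C : VariableChange MeroH) (n : ℕ) [NeZero n] (v : ZMod n × ZMod n) : MeroH :=
  (yM n v - (C.u : MeroH) ^ 2 * C.s * xc C n v - C.t) / (C.u : MeroH) ^ 3

include h in
/-- The level structure on the member of the family. -/
theorem exists_basisM : ∃ φ : ZMod n × ZMod n →+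
    (fam.map (eval₂RingHom (Int.castRingHom MeroH) par)).toAffine.Point,
    Function.Injective φ ∧ ∀ v, v ≠ 0 → ∃ hn, φ v = .some (xc C n v) (yc C n v) hn := by
  let e := EC.Reduction.variableChangePointEquiv C W0M
  refine ⟨((pointCast h.curve_eq).toAddMonoidHom.comp e.symm.toAddMonoidHom).comp (torsM n),
    (pointCast h.curve_eq).injective.comp (e.symm.injective.comp torsM_injective), fun v hv => ?_⟩
  have hu : (C.u : MeroH) ≠ 0 := C.u.ne_zero
  rcases hP : e.symm (torsM n v) with _ | ⟨x, y, hn⟩
  · exfalso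
    have := congrArg e hP
    rw [AddEquiv.apply_symm_apply, ← Affine.Point.zero_def, map_zero] at this
    exact hv (torsM_injective (this.trans (map_zero _).symm))
  · have := congrArg e hP
    rw [AddEquiv.apply_symm_apply, torsM_apply, pM_of_ne hv] at this
    have he : e (.some x y hn) = EC.Reduction.variableChangePoint C W0M (.some x y hn) := by
      simp only [e, EC.Reduction.variableChangePointEquiv, AddEquiv.ofBijective,
        EC.Reduction.variableChangePointHom]
      rfl
    rw [he] at this
    simp only [EC.Reduction.variableChangePoint, Affine.Point.some.injEq] at this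
    obtain ⟨hx, hy⟩ := this
    have hx' : xc C n v = x := by rw [xc, hx]; field_simp; ring
    have hy' : yc C n v = y := by
      rw [yc, hx', hy]; field_simp; ring
    subst hx' hy'
    refine ⟨h.curve_eq ▸ hn, ?_⟩
    simp only [AddMonoidHom.comp_apply, AddEquiv.coe_toAddMonoidHom, hP]
    exact pointCast_some h.curve_eq hn

variable {K : Type} [Field K] (ι : K →+* ℂ)

/-- The generators other than the constants. -/
def gens (C : VariableChange MeroH) (par : MeroH) (n : ℕ) [NeZero n] : Set MeroH :=
  insert par (⋃ v ∈ {v : ZMod n × ZMod n | v ≠ 0}, {xc C n v, yc C n v})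

/-- The field generated by the constants, the parameter and the coordinates. -/
def bField (C : VariableChange MeroH) (par : MeroH) : Subfield MeroH :=
  Subfield.closure (Set.range (fun c => const (ι c)) ∪ gens C par n)

theorem const_mem_bField (c : K) : const (ι c) ∈ bField n ι C par :=
  Subfield.subset_closure (Or.inl ⟨c, rfl⟩)

theorem par_mem_bField : par ∈ bField n ι C par :=
  Subfield.subset_closure (Or.inr (Set.mem_insert _ _))

theorem xc_mem_bField {v : ZMod n × ZMod n} (hv : v ≠ 0) : xc C n v ∈ bField n ι C par :=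
  Subfield.subset_closure (Or.inr (Set.mem_insert_of_mem _
    (Set.mem_biUnion hv (Set.mem_insert _ _))))

theorem yc_mem_bField {v : ZMod n × ZMod n} (hv : v ≠ 0) : yc C n v ∈ bField n ι C par :=
  Subfield.subset_closure (Or.inr (Set.mem_insert_of_mem _
    (Set.mem_biUnion hv (Set.mem_insert_of_mem _ rfl))))

/-- The constants. -/
def constK (C : VariableChange MeroH) (par : MeroH) : K →+* bField n ι C par :=
  (const.comp ι).codRestrict _ fun c => const_mem_bField n ι c

instance instAlgebraBField (C : VariableChange MeroH) (par : MeroH) :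
    Algebra K (bField n ι C par) :=
  (constK n ι C par).toAlgebra

/-- The parameter as an element of the field. -/
def parB (C : VariableChange MeroH) (par : MeroH) : bField n ι C par :=
  ⟨par, par_mem_bField n ι⟩

theorem map_curveB : (fam.map (eval₂RingHom (Int.castRingHom (bField n ι C par))
    (parB n ι C par))).map (bField n ι C par).subtype =
      fam.map (eval₂RingHom (Int.castRingHom MeroH) par) := by
  rw [WeierstrassCurve.map_map]
  congr 1
  exact Polynomial.ringHom_ext (fun k => by simp) (by simp [parB])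

include h in
theorem exists_levelData {q r : ℕ} [NeZero (q * r)] :
    ∃ L : LevelData K (bField (q * r) ι C par) fam q r, (L.par : MeroH) = par ∧
      ∀ v, v ≠ 0 → ∃ (x y : bField (q * r) ι C par) (hn : _),
        L.basis v = .some x y hn ∧ (x : MeroH) = xc C (q * r) v ∧
          (y : MeroH) = yc C (q * r) v := by
  set n := q * r
  obtain ⟨φ, hφ, hφv⟩ := exists_basisM h n
  set W := fam.map (eval₂RingHom (Int.castRingHom (bField n ι C par)) (parB n ι C par))
  let Φ : W.toAffine.Point →+ (fam.map (eval₂RingHom (Int.castRingHom MeroH) par)).toAffine.Point :=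
    (pointCast (map_curveB n ι)).toAddMonoidHom.comp (pointMap (bField n ι C par).subtype W)
  have hΦ : Function.Injective Φ :=
    (pointCast (map_curveB n ι)).injective.comp (pointMap_injective _ W)
  have hlift : ∀ v, ∃ P : W.toAffine.Point, Φ P = φ v ∧ (v ≠ 0 → ∃ x y hn,
      P = .some x y hn ∧ (x : MeroH) = xc C n v ∧ (y : MeroH) = yc C n v) := by
    intro v
    rcases eq_or_ne v 0 with rfl | hv
    · exact ⟨0, by rw [map_zero, map_zero], fun h0 => absurd rfl h0⟩
    obtain ⟨hn, he⟩ := hφv v hv
    have hn' : W.toAffine.Nonsingular ⟨_, xc_mem_bField n ι hv⟩ ⟨_, yc_mem_bField n ι hv⟩ := by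
      refine (W.toAffine.map_nonsingular (f := (bField n ι C par).subtype)
        (bField n ι C par).subtype.injective _ _).1 ?_
      change ((W.map (bField n ι C par).subtype)).toAffine.Nonsingular _ _
      rw [map_curveB]
      exact hn
    refine ⟨.some _ _ hn', ?_, fun _ => ⟨_, _, hn', rfl, rfl, rfl⟩⟩
    rw [he]
    simp only [Φ, AddMonoidHom.comp_apply, pointMap_some, AddEquiv.coe_toAddMonoidHom]
    exact pointCast_some _ _
  choose P hP hPc using hlift
  let basis : ZMod n × ZMod n →+ W.toAffine.Point :=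
    AddMonoidHom.mk' P fun v w => hΦ (by rw [map_add, hP, hP, hP, map_add])
  have hinj : Function.Injective basis := fun v w hvw => hφ (by
    rw [← hP, ← hP]; exact congrArg Φ hvw)
  refine ⟨⟨parB n ι C par, ?_, basis, hinj, ?_⟩, rfl, hPc⟩
  · rw [transcendental_iff]
    intro p hp
    by_contra hp0
    have h0 : (p.map ι).eval₂ MeroH.const par = 0 := by
      have := congrArg (bField n ι C par).subtype hp
      rw [map_zero, aeval_def, hom_eval₂] at this
      rw [eval₂_map]
      exact this
    rw [(IsAlgClosed.splits (p.map ι)).eq_prod_roots, eval₂_mul, eval₂_C, mul_eq_zero,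
      map_eq_zero, leadingCoeff_eq_zero, Polynomial.map_eq_zero, or_iff_right hp0,
      eval₂_multiset_prod, Multiset.prod_eq_zero_iff] at h0
    obtain ⟨g, hg, hg0⟩ := Multiset.mem_map.1 h0
    obtain ⟨c, -, rfl⟩ := Multiset.mem_map.1 hg
    exact h.ne_const c (by simpa [sub_eq_zero] using hg0)
  · rw [eq_top_iff]
    rintro ⟨x, hx⟩ -
    set A := IntermediateField.adjoin K
      (insert (parB n ι C par) (⋃ v, pointCoords (basis v)))
    induction hx using Subfield.closure_induction with
    | mem x hx =>
      rcases hx with ⟨c, rfl⟩ | rfl | hx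
      · exact A.algebraMap_mem c
      · exact IntermediateField.subset_adjoin _ _ (Set.mem_insert _ _)
      · obtain ⟨v, hv, hxv⟩ := Set.mem_iUnion₂.1 hx
        obtain ⟨x', y', hn', he, hx', hy'⟩ := hPc v hv
        refine IntermediateField.subset_adjoin _ _ (Set.mem_insert_of_mem _
          (Set.mem_iUnion.2 ⟨v, ?_⟩))
        rw [show basis v = _ from he]
        rcases hxv with rfl | rfl
        · exact Or.inl (Subtype.ext hx'.symm)
        · exact Or.inr (Subtype.ext hy'.symm)
    | one => exact A.one_mem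
    | add a b ha hb iha ihb => exact A.add_mem iha ihb
    | neg a ha iha => exact A.neg_mem iha
    | inv a ha iha => exact A.inv_mem iha
    | mul a b ha hb iha ihb => exact A.mul_mem iha ihb

include h in
theorem slComp_xc {γ : SL(2, ℤ)} (hγ : γ ∈ adm m) (v : ZMod n × ZMod n) :
    slComp γ (xc C n v) = xc C n (rowAct γ v) := by
  have hu := mem_weightStab.1 (h.u_weight hγ)
  have hr := mem_weightStab.1 (h.r_weight hγ)
  have hJ := denomM_ne_zero γ
  rw [xc, xc, map_div₀, map_sub, map_pow, slComp_xM, hr, hu, ← mul_sub, pow_one, mul_pow,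
    mul_div_mul_left _ _ (pow_ne_zero _ hJ)]

include h in
theorem slComp_yc {γ : SL(2, ℤ)} (hγ : γ ∈ adm m) (v : ZMod n × ZMod n) :
    slComp γ (yc C n v) = yc C n (rowAct γ v) := by
  have hu := mem_weightStab.1 (h.u_weight hγ)
  have hs := mem_weightStab.1 (h.s_weight hγ)
  have ht := mem_weightStab.1 (h.t_weight hγ)
  have hJ := denomM_ne_zero γ
  rw [yc, yc, map_div₀, map_sub, map_sub, map_mul, map_mul, map_pow, map_pow, slComp_yM,
    slComp_xc h n hγ, hu, hs, ht, pow_one, mul_pow, mul_pow,
    show denomM γ ^ 3 * yM n (rowAct γ v) -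
        denomM γ ^ 2 * (C.u : MeroH) ^ 2 * (denomM γ * C.s) * xc C n (rowAct γ v) -
        denomM γ ^ 3 * C.t =
      denomM γ ^ 3 * (yM n (rowAct γ v) - (C.u : MeroH) ^ 2 * C.s * xc C n (rowAct γ v) - C.t) by
      ring, mul_div_mul_left _ _ (pow_ne_zero _ hJ)]

include h in
theorem slComp_mem_bField {γ : SL(2, ℤ)} (hγ : γ ∈ adm m) {x : MeroH}
    (hx : x ∈ bField n ι C par) : slComp γ x ∈ bField n ι C par := by
  refine (Subfield.closure_le (t := (bField n ι C par).comap (slComp γ))).2 ?_ hx
  rintro _ (⟨c, rfl⟩ | rfl | hx)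
  · rw [SetLike.mem_coe, Subfield.mem_comap, slComp_const]
    exact const_mem_bField n ι c
  · rw [SetLike.mem_coe, Subfield.mem_comap,
      mem_weightStab_zero.1 (h.par_weight hγ)]
    exact par_mem_bField n ι
  · obtain ⟨v, hv, hxv⟩ := Set.mem_iUnion₂.1 hx
    have hv' : rowAct γ v ≠ 0 := fun h0 => hv (rowAct_injective γ (h0.trans (map_zero _).symm))
    rcases hxv with rfl | rfl
    · rw [SetLike.mem_coe, Subfield.mem_comap, slComp_xc h n hγ]
      exact xc_mem_bField n ι hv'
    · rw [SetLike.mem_coe, Subfield.mem_comap, slComp_yc h n hγ]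
      exact yc_mem_bField n ι hv'

include h in
/-- The automorphism given by an element of `adm m`. -/
theorem exists_sigma {γ : SL(2, ℤ)} (hγ : γ ∈ adm m) :
    ∃ σ : bField n ι C par ≃ₐ[K] bField n ι C par,
      ∀ x, (σ x : MeroH) = slComp γ (x : MeroH) := by
  let f : ∀ δ, δ ∈ adm m → bField n ι C par →ₐ[K] bField n ι C par := fun δ hδ =>
    { (((slComp δ).comp (bField n ι C par).subtype).codRestrict _
        fun x => slComp_mem_bField h n ι hδ x.2) with
      commutes' := fun c => Subtype.ext (slComp_const δ (ι c)) }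
  refine ⟨AlgEquiv.ofAlgHom (f γ hγ) (f γ⁻¹ ((adm m).inv_mem hγ)) ?_ ?_, fun x => rfl⟩
  · refine AlgHom.ext fun x => Subtype.ext ?_
    change slComp γ (slComp γ⁻¹ (x : MeroH)) = x
    rw [slComp_slComp, inv_mul_cancel, slComp_one]
  · refine AlgHom.ext fun x => Subtype.ext ?_
    change slComp γ⁻¹ (slComp γ (x : MeroH)) = x
    rw [slComp_slComp, mul_inv_cancel, slComp_one]

end Field

end Fermat.Agent.Carayol
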