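import Fermat.Agent.Carayol.Bridge.Field
import Fermat.Agent.EC.Torsion.Main

/-!
# The generators `j(b τ / a)` in the field of a level structure

The functions `j(b τ / a)` in the field of a level structure, the automorphisms fixing them, and
the finiteness of the automorphisms over the parameter.

Main result: `sigma_mem_borel`.
-/

set_option autoImplicit false

noncomputable section

open Complex
open UpperHalfPlane hiding I
open scoped MatrixGroups

namespace Fermat.Agent.Carayol

open Fermat.Agent.Kummer Fermat.Agent.Kummer.MeroH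
open WeierstrassCurve Polynomial

namespace LevelData

variable {K F : Type*} [Field K] [Field F] [DecidableEq F] [Algebra K F]
  {fam : WeierstrassCurve ℤ[X]} {q r : ℕ} (L : LevelData K F fam q r)

/-- An automorphism over the parameter is determined by its values on the coordinates. -/
theorem eq_of_act_basis_eq {σ σ' : F ≃ₐ[K] F} (hσ : σ ∈ L.autGroup) (hσ' : σ' ∈ L.autGroup)
    (h : ∀ v, L.act hσ (L.basis v) = L.act hσ' (L.basis v)) : σ = σ' := by
  refine AlgEquiv.ext fun x => ?_
  have hx : x ∈ IntermediateField.adjoin K (insert L.par (⋃ v, pointCoords (L.basis v))) :=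
    L.adjoin_eq_top ▸ IntermediateField.mem_top
  induction hx using IntermediateField.adjoin_induction with
  | mem x hx =>
    rcases hx with rfl | hx
    · exact hσ.trans hσ'.symm
    · obtain ⟨v, hv⟩ := Set.mem_iUnion.1 hx
      have hv' := h v
      rcases hb : L.basis v with _ | ⟨a, b, hn⟩
      · rw [hb] at hv; exact hv.elim
      · rw [hb] at hv hv'
        obtain ⟨_, e⟩ := pointAct_some σ.toAlgHom.toRingHom L.curve (L.map_curve hσ) hn
        obtain ⟨_, e'⟩ := pointAct_some σ'.toAlgHom.toRingHom L.curve (L.map_curve hσ') hn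
        rw [LevelData.act, LevelData.act, e, e', Affine.Point.some.injEq] at hv'
        rcases hv with rfl | rfl
        · exact hv'.1
        · exact hv'.2
  | algebraMap c => rw [σ.commutes, σ'.commutes]
  | add x y _ _ hx hy => rw [map_add, map_add, hx, hy]
  | inv x _ hx => rw [map_inv₀, map_inv₀, hx]
  | mul x y _ _ hx hy => rw [map_mul, map_mul, hx, hy]

/-- There are only finitely many automorphisms over the parameter. -/
theorem finite_autGroup [NeZero (q * r)] [CharZero F] [L.curve.IsElliptic] :
    (L.autGroup : Set (F ≃ₐ[K] F)).Finite := by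
  have hT := EC.Torsion.finite_setOf_nsmul_eq_zero (W := L.curve.toAffine) (n := q * r)
    (Nat.cast_ne_zero.2 (NeZero.ne (q * r)))
  have := hT.to_subtype
  let f : L.autGroup →
      (ZMod (q * r) × ZMod (q * r) → {P : L.curve.toAffine.Point | (q * r) • P = 0}) :=
    fun σ v => ⟨L.act σ.2 (L.basis v), by
      show (q * r) • _ = 0
      rw [← map_nsmul, ← map_nsmul]
      convert map_zero (L.act σ.2)
      refine (congrArg L.basis ?_).trans (map_zero _)
      ext <;> simp [-Nat.cast_mul]⟩
  have hf : Function.Injective f := fun σ σ' h => Subtype.ext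
    (L.eq_of_act_basis_eq σ.2 σ'.2 fun v => congrArg Subtype.val (congrFun h v))
  have : Finite L.autGroup := Finite.of_injective f hf
  exact Set.finite_coe_iff.1 this

end LevelData

section Model

open scoped Classical

variable {fam : WeierstrassCurve ℤ[X]} {m : ℕ} {C : VariableChange MeroH} {par : MeroH}
  (h : IsModel fam m C par) {q r : ℕ} [NeZero (q * r)] {K : Type} [Field K] {ι : K →+* ℂ}
  (L : LevelData K (bField (q * r) ι C par) fam q r)
  (hpar : (L.par : MeroH) = par)
  (hcoord : ∀ v, v ≠ 0 → ∃ (x y : bField (q * r) ι C par) (hn : _),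
    L.basis v = .some x y hn ∧ (x : MeroH) = xc C (q * r) v ∧ (y : MeroH) = yc C (q * r) v)

include h hpar in
theorem map_subtype_curve : L.curve.map (bField (q * r) ι C par).subtype = C • W0M := by
  rw [h.curve_eq, LevelData.curve, WeierstrassCurve.map_map]
  congr 1
  exact Polynomial.ringHom_ext (fun k => by simp) (by simpa using hpar)

include h hpar in
theorem isElliptic_bridgeCurve : L.curve.IsElliptic := by
  have hu : IsUnit (C • W0M).Δ := (C • W0M).isUnit_Δ
  rw [← map_subtype_curve h L hpar, WeierstrassCurve.map_Δ] at hu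
  rw [WeierstrassCurve.isElliptic_iff, isUnit_iff_ne_zero]
  intro h0
  rw [h0, map_zero] at hu
  exact not_isUnit_zero hu

/-- `j(b τ / a)` in the field of the level structure. -/
def jElem (a b : ℕ) : bField (q * r) ι C par :=
  jQuot L.curve ((subTors (q * r) a b).erase 0) fun v => pointX (L.basis v)

include h hpar hcoord in
theorem coe_jElem {a b : ℕ} (ha : a ∣ q * r) (hb : b ∣ q * r)
    (hdet : 0 < (!![(b : ℤ), 0; 0, (a : ℤ)]).det) :
    (jElem L a b : MeroH) = intComp !![(b : ℤ), 0; 0, (a : ℤ)] hdet jMero := by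
  have : CharZero MeroH := charZero_of_injective_ringHom const_injective
  rw [← jQuot_W0M ha hb hdet,
    ← jQuot_variableChange C W0M _ (xM (q * r)) (xc C (q * r)) fun v _ => by
      rw [xc, mul_div_cancel₀ _ (pow_ne_zero 2 C.u.ne_zero), sub_add_cancel]]
  refine (map_jQuot (bField (q * r) ι C par).subtype _ _ _).trans ?_
  rw [map_subtype_curve h L hpar]
  have hx : ∀ v ∈ (subTors (q * r) a b).erase 0,
      (bField (q * r) ι C par).subtype (pointX (L.basis v)) = xc C (q * r) v := by
    intro v hv
    obtain ⟨x, y, hn, he, hx, -⟩ := hcoord v (Finset.mem_erase.1 hv).1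
    rw [he]
    exact hx
  unfold jQuot quotG₂ quotG₃
  congr 2 <;> exact Finset.sum_congr rfl fun v hv => by simp only [hx v hv]

theorem jElem_fixed (hqr : r.Coprime q) {a b : ℕ}
    {σ : bField (q * r) ι C par ≃ₐ[K] bField (q * r) ι C par} (hl : σ ∈ L.levelFix)
    (ha : a.Coprime q ∨ q ∣ a ∧ σ ∈ L.borel 0) (hb : b.Coprime q ∨ q ∣ b ∧ σ ∈ L.borel 1) :
    σ (jElem L a b) = jElem L a b := by
  obtain ⟨hσ, -⟩ := id hl
  exact L.apply_jQuot hσ _ fun v hv => L.stable_subTors hqr hl hσ ha hb hv

variable {γ : SL(2, ℤ)} {σ : bField (q * r) ι C par ≃ₐ[K] bField (q * r) ι C par}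

include h hpar in
theorem sigma_mem_autGroup (hγ : γ ∈ adm m) (hσ : ∀ x, (σ x : MeroH) = slComp γ (x : MeroH)) :
    σ ∈ L.autGroup := by
  rw [LevelData.mem_autGroup]
  refine Subtype.ext ?_
  rw [hσ, hpar]
  exact mem_weightStab_zero.1 (h.par_weight hγ)

include h hcoord in
theorem sigma_act (hγ : γ ∈ adm m) (hσ : ∀ x, (σ x : MeroH) = slComp γ (x : MeroH))
    (hmem : σ ∈ L.autGroup) (v : ZMod (q * r) × ZMod (q * r)) :
    L.act hmem (L.basis v) = L.basis (rowAct γ v) := by
  rcases eq_or_ne v 0 with rfl | hv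
  · simp only [map_zero]
  have hv' : rowAct γ v ≠ 0 := fun h0 => hv (rowAct_injective γ (h0.trans (map_zero _).symm))
  obtain ⟨x, y, hn, he, hx, hy⟩ := hcoord v hv
  obtain ⟨x', y', hn', he', hx', hy'⟩ := hcoord _ hv'
  obtain ⟨_, e⟩ := pointAct_some σ.toAlgHom.toRingHom L.curve (L.map_curve hmem) hn
  rw [he, he', LevelData.act, e, Affine.Point.some.injEq]
  refine ⟨Subtype.ext ?_, Subtype.ext ?_⟩
  · change ((σ x : bField (q * r) ι C par) : MeroH) = x'
    rw [hσ, hx, hx', slComp_xc h _ hγ]
  · change ((σ y : bField (q * r) ι C par) : MeroH) = y'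
    rw [hσ, hy, hy', slComp_yc h _ hγ]

include h hpar hcoord in
/-- An element of `SL(2, ℤ)` fixing the level `r` and a line at `q` gives an element of a Borel
subgroup. -/
theorem sigma_mem_borel (hγ : γ ∈ adm m) (hσ : ∀ x, (σ x : MeroH) = slComp γ (x : MeroH))
    (i : Fin 2) (hfix : ∀ v, rowAct (n := q * r) γ (q • v) = q • v)
    (hline : rowAct (n := q * r) γ
        (if i = 0 then ((r : ZMod (q * r)), 0) else (0, (r : ZMod (q * r)))) =
      if i = 0 then ((r : ZMod (q * r)), 0) else (0, (r : ZMod (q * r)))) :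
    σ ∈ L.borel i := by
  have hmem := sigma_mem_autGroup h L hpar hγ hσ
  refine ⟨⟨hmem, fun v => ?_⟩, hmem, ?_⟩
  · rw [sigma_act h L hcoord hγ hσ, hfix]
  · rw [AddMonoidHom.map_zmultiples, LevelData.lineGen, sigma_act h L hcoord hγ hσ, hline]

end Model

end Fermat.Agent.Carayol
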