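import Mathlib.AlgebraicGeometry.EllipticCurve.VariableChange
import Mathlib.Tactic.FieldSimp

/-!
# The invariant `j` of a quotient curve

The invariant `j` of the quotient of a Weierstrass curve by a finite group of points, as a
symmetric rational function of the abscissae of the points.

Main result: `jQuot_variableChange`.
-/

set_option autoImplicit false

namespace Fermat.Agent.Carayol

open WeierstrassCurve

variable {F : Type*} [Field F] {α : Type*}

/-- `1728 g₂³ / (g₂³ - 27 g₃²)`. -/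
def jFromInv (g₂ g₃ : F) : F := 1728 * g₂ ^ 3 / (g₂ ^ 3 - 27 * g₃ ^ 2)

/-- `g₂` of the quotient by the group whose nonzero points have abscissae `x a`, `a ∈ S`. -/
def quotG₂ (W : WeierstrassCurve F) (S : Finset α) (x : α → F) : F :=
  W.c₄ / 12 + ∑ a ∈ S, (60 * (x a + W.b₂ / 12) ^ 2 - 5 * (W.c₄ / 12))

/-- `g₃` of the quotient by the group whose nonzero points have abscissae `x a`, `a ∈ S`. -/
def quotG₃ (W : WeierstrassCurve F) (S : Finset α) (x : α → F) : F :=
  W.c₆ / 216 + ∑ a ∈ S, (140 * (x a + W.b₂ / 12) ^ 3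
    - 21 * (W.c₄ / 12) * (x a + W.b₂ / 12) - 14 * (W.c₆ / 216))

/-- `j` of the quotient by the group whose nonzero points have abscissae `x a`, `a ∈ S`. -/
def jQuot (W : WeierstrassCurve F) (S : Finset α) (x : α → F) : F :=
  jFromInv (quotG₂ W S x) (quotG₃ W S x)

theorem map_jQuot {F' : Type*} [Field F'] (φ : F →+* F') (W : WeierstrassCurve F)
    (S : Finset α) (x : α → F) : φ (jQuot W S x) = jQuot (W.map φ) S (fun a => φ (x a)) := by
  simp [jQuot, jFromInv, quotG₂, quotG₃, map_sum, map_ofNat]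

theorem jQuot_image {β : Type*} [DecidableEq β] (W : WeierstrassCurve F) (S : Finset α)
    (x : β → F) {e : α → β} (he : Set.InjOn e S) :
    jQuot W (S.image e) x = jQuot W S fun a => x (e a) := by
  simp [jQuot, quotG₂, quotG₃, Finset.sum_image he]

/-- The invariant of the quotient does not depend on the coordinates. -/
theorem jQuot_variableChange [CharZero F] (C : VariableChange F) (W : WeierstrassCurve F)
    (S : Finset α) (x x' : α → F) (hx : ∀ a ∈ S, x a = (C.u : F) ^ 2 * x' a + C.r) :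
    jQuot (C • W) S x' = jQuot W S x := by
  have hu : (C.u : F) ≠ 0 := C.u.ne_zero
  have hX : ∀ a ∈ S, x' a + (C • W).b₂ / 12 = ((C.u : F) ^ 2)⁻¹ * (x a + W.b₂ / 12) := by
    intro a ha
    rw [variableChange_b₂, hx a ha, Units.val_inv_eq_inv_val]
    field_simp
    ring
  have h₂ : quotG₂ (C • W) S x' = ((C.u : F) ^ 4)⁻¹ * quotG₂ W S x := by
    rw [quotG₂, quotG₂, mul_add, Finset.mul_sum, variableChange_c₄, Units.val_inv_eq_inv_val]
    congr 1
    · ring
    · refine Finset.sum_congr rfl fun a ha => ?_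
      rw [hX a ha]
      ring
  have h₃ : quotG₃ (C • W) S x' = ((C.u : F) ^ 6)⁻¹ * quotG₃ W S x := by
    rw [quotG₃, quotG₃, mul_add, Finset.mul_sum, variableChange_c₄, variableChange_c₆,
      Units.val_inv_eq_inv_val]
    congr 1
    · ring
    · refine Finset.sum_congr rfl fun a ha => ?_
      rw [hX a ha]
      ring
  rw [jQuot, jQuot, jFromInv, jFromInv, h₂, h₃,
    show 1728 * (((C.u : F) ^ 4)⁻¹ * quotG₂ W S x) ^ 3 =
      ((C.u : F) ^ 12)⁻¹ * (1728 * quotG₂ W S x ^ 3) by ring,
    show (((C.u : F) ^ 4)⁻¹ * quotG₂ W S x) ^ 3 - 27 * (((C.u : F) ^ 6)⁻¹ * quotG₃ W S x) ^ 2 =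
      ((C.u : F) ^ 12)⁻¹ * (quotG₂ W S x ^ 3 - 27 * quotG₃ W S x ^ 2) by ring,
    mul_div_mul_left _ _ (inv_ne_zero (pow_ne_zero 12 hu))]

end Fermat.Agent.Carayol
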