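import Fermat.Agent.Carayol.Bridge.Weight
import Fermat.Agent.Carayol.Families
import Fermat.Agent.MFGenus.FieldDegree

/-!
# The two families as models of the universal cubic

The changes of variables from `y² = x³ - (g₂/4) x - g₃/4` to the two families.

Main result: `jQuot_empty_W0M`.
-/

set_option autoImplicit false

noncomputable section

open Complex Filter Topology
open UpperHalfPlane hiding I
open scoped MatrixGroups PeriodPair Classical

namespace Fermat.Agent.Carayol

open Weier Fermat.Agent.LevelOne Fermat.Agent.Kummer Fermat.Agent.Kummer.MeroH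
open Fermat.Agent.MFGenus (holSubring holHom holHom_injective)
open WeierstrassCurve Polynomial

/-- The group generated by the two unipotents of level `m`. -/
def adm (m : ℕ) : Subgroup SL(2, ℤ) :=
  Subgroup.zpowers (ModularGroup.T ^ m) ⊔ Subgroup.zpowers (lowerU ^ m)

theorem adm_le_of_dvd {m m' : ℕ} (h : m ∣ m') : adm m' ≤ adm m := by
  obtain ⟨k, rfl⟩ := h
  rw [adm, sup_le_iff, Subgroup.zpowers_le, Subgroup.zpowers_le, pow_mul, pow_mul]
  exact ⟨pow_mem (Subgroup.mem_sup_left (Subgroup.mem_zpowers _)) k,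
    pow_mem (Subgroup.mem_sup_right (Subgroup.mem_zpowers _)) k⟩

theorem rowAct_of_mem_adm {n : ℕ} {γ : SL(2, ℤ)} (h : γ ∈ adm n) (v : ZMod n × ZMod n) :
    rowAct γ v = v :=
  rowAct_eq_self γ h v

/-- A change of variables carrying the cubic to a member of a family, with the transformation
law of its coefficients under `adm m`. -/
structure IsModel (fam : WeierstrassCurve ℤ[X]) (m : ℕ) (C : VariableChange MeroH) (par : MeroH) :
    Prop where
  curve_eq : C • W0M = fam.map (eval₂RingHom (Int.castRingHom MeroH) par)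
  u_weight : adm m ≤ weightStab 1 (C.u : MeroH)
  r_weight : adm m ≤ weightStab 2 C.r
  s_weight : adm m ≤ weightStab 1 C.s
  t_weight : adm m ≤ weightStab 3 C.t
  par_weight : adm m ≤ weightStab 0 par

theorem W0M_a₁ : W0M.a₁ = 0 := by simp [W0M, W0H]
theorem W0M_a₂ : W0M.a₂ = 0 := by simp [W0M, W0H]
theorem W0M_a₃ : W0M.a₃ = 0 := by simp [W0M, W0H]

theorem weight_a₄ (γ : SL(2, ℤ)) : γ ∈ weightStab 4 W0M.a₄ := by
  rw [mem_weightStab, ← (map_slComp_W0M γ).2.2.2.1]
  rfl

theorem equation_M {n : ℕ} [NeZero n] {v : ZMod n × ZMod n} (hv : v ≠ 0) :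
    yM n v ^ 2 = xM n v ^ 3 + W0M.a₄ * xM n v + W0M.a₆ := by
  have h := (nonsingular_M hv).1
  rw [Affine.equation_iff] at h
  simpa [W0M_a₁, W0M_a₂, W0M_a₃, toAffine] using h

theorem yM_eq_zero {n : ℕ} [NeZero n] {v : ZMod n × ZMod n} (hv : v ≠ 0) (h2 : v + v = 0) :
    yM n v = 0 := by
  have h : pM n v + pM n v = 0 := by rw [← pM_add, h2, pM_zero]
  rw [pM_of_ne hv] at h
  by_contra hy
  refine Affine.Point.some_ne_zero _ ((Affine.Point.add_some ?_).symm.trans h)
  rintro ⟨-, h'⟩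
  simp only [Affine.negY, toAffine, W0M_a₁, W0M_a₃, zero_mul, sub_zero] at h'
  have : CharZero MeroH := charZero_of_injective_ringHom const_injective
  exact hy (by linear_combination h' / 2)

theorem exists_legendre :
    ∃ (C : VariableChange MeroH) (par : MeroH), IsModel legendreFam 4 C par := by
  set v₁ : ZMod 2 × ZMod 2 := (1, 0)
  set v₂ : ZMod 2 × ZMod 2 := (0, 1)
  set v₃ : ZMod 2 × ZMod 2 := (1, 1)
  set e₁ := xM 2 v₁
  set e₂ := xM 2 v₂
  set e₃ := xM 2 v₃
  have hne : ∀ (v w : ZMod 2 × ZMod 2), v ≠ 0 → w ≠ 0 → v ≠ w → ∀ τ,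
      (xH 2 v - xH 2 w : holSubring).1 τ ≠ 0 := by
    intro v w hv hw hvw τ h
    have h' : ℘[tauPair τ] (zV 2 v τ) = ℘[tauPair τ] (zV 2 w τ) := sub_eq_zero.1 h
    rw [weierstrassP_eq_iff (Δ_curve_tauPair τ) (fun hh => hv (zV_mem_iff.1 hh))
      (fun hh => hw (zV_mem_iff.1 hh))] at h'
    have hww : w + w = 0 := (by decide : ∀ z : ZMod 2 × ZMod 2, z + z = 0) w
    rcases h' with h' | h'
    · exact hvw (torsHom_injective τ (by rwa [torsHom_apply, torsHom_apply, pt_eq_iff]))
    · refine hvw (eq_of_sub_eq_zero ?_)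
      rw [sub_eq_add_neg, neg_eq_of_add_eq_zero_left hww]
      exact (zV_mem_iff (τ := τ)).1 (by simpa using sub_mem h' (zV_add_mem v w τ))
  have hneM : ∀ (v w : ZMod 2 × ZMod 2), v ≠ 0 → w ≠ 0 → v ≠ w → xM 2 v - xM 2 w ≠ 0 :=
    fun v w hv hw hvw => by
      rw [xM, xM, ← map_sub]
      exact holHom_ne_zero UpperHalfPlane.I (hne v w hv hw hvw _)
  have hroot : ∀ v : ZMod 2 × ZMod 2, v ≠ 0 → xM 2 v ^ 3 + W0M.a₄ * xM 2 v + W0M.a₆ = 0 :=
    fun v hv => by
      rw [← equation_M hv, yM_eq_zero hv (by revert v; decide)]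
      ring
  have f₁ := hroot v₁ (by decide)
  have f₂ := hroot v₂ (by decide)
  have f₃ := hroot v₃ (by decide)
  have n₁₂ := hneM v₁ v₂ (by decide) (by decide) (by decide)
  have n₁₃ := hneM v₁ v₃ (by decide) (by decide) (by decide)
  have n₂₃ := hneM v₂ v₃ (by decide) (by decide) (by decide)
  have g₁₂ : e₁ ^ 2 + e₁ * e₂ + e₂ ^ 2 + W0M.a₄ = 0 :=
    mul_left_cancel₀ n₁₂ (by linear_combination f₁ - f₂)
  have g₁₃ : e₁ ^ 2 + e₁ * e₃ + e₃ ^ 2 + W0M.a₄ = 0 :=
    mul_left_cancel₀ n₁₃ (by linear_combination f₁ - f₃)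
  have hsum : e₁ + e₂ + e₃ = 0 :=
    mul_left_cancel₀ n₂₃ (by linear_combination g₁₂ - g₁₃)
  obtain ⟨u, hu⟩ := exists_pow_eq_holHom (hne v₂ v₁ (by decide) (by decide) (by decide)) two_ne_zero
  have hu2 : u ^ 2 = e₂ - e₁ := by rw [hu, map_sub]; rfl
  have hu0 : u ≠ 0 := fun h0 => n₁₂ (by rw [h0] at hu2; linear_combination hu2)
  have hw : ∀ γ ∈ adm 2, ∀ v : ZMod 2 × ZMod 2, γ ∈ weightStab 2 (xM 2 v) := fun γ hγ v =>
    mem_weightStab_xM (rowAct_of_mem_adm hγ v)
  have hadm : adm 4 ≤ adm 2 := adm_le_of_dvd ⟨2, rfl⟩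
  have huw : adm 4 ≤ weightStab 1 u := by
    have h2 : ∀ γ ∈ adm 2, γ ^ 2 ∈ weightStab 1 u := fun γ hγ =>
      pow_mem_weightStab hu0 (by
        rw [hu2, mem_weightStab, map_sub, mem_weightStab.1 (hw γ hγ v₂),
          mem_weightStab.1 (hw γ hγ v₁)]
        ring)
    rw [adm, sup_le_iff, Subgroup.zpowers_le, Subgroup.zpowers_le,
      show (4 : ℕ) = 2 * 2 from rfl, pow_mul, pow_mul]
    exact ⟨h2 _ (Subgroup.mem_sup_left (Subgroup.mem_zpowers _)),
      h2 _ (Subgroup.mem_sup_right (Subgroup.mem_zpowers _))⟩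
  refine ⟨⟨Units.mk0 u hu0, e₁, 0, 0⟩, (e₃ - e₁) / (e₂ - e₁), ⟨?_, huw, fun γ hγ =>
    hw γ (hadm hγ) v₁, fun γ _ => by simp [mem_weightStab], fun γ _ => by simp [mem_weightStab],
    fun γ hγ => ?_⟩⟩
  · have h21 : e₂ - e₁ ≠ 0 := fun h => n₁₂ (by linear_combination -h)
    ext <;> simp only [variableChange_a₁, variableChange_a₂, variableChange_a₃, variableChange_a₄,
      variableChange_a₆, W0M_a₁, W0M_a₂, W0M_a₃, legendreFam, map_a₁, map_a₂, map_a₃, map_a₄,
      map_a₆, map_zero, map_neg, map_add, map_one, coe_eval₂RingHom, eval₂_X,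
      Units.val_inv_eq_inv_val, Units.val_mk0, inv_pow]
    · ring
    · rw [hu2]
      field_simp
      linear_combination hsum
    · ring
    · rw [show u ^ 4 = (e₂ - e₁) ^ 2 by rw [← hu2]; ring]
      field_simp
      linear_combination g₁₂ - (e₂ - e₁) * hsum
    · rw [mul_eq_zero]
      right
      linear_combination f₁
  · rw [mem_weightStab_zero, map_div₀, map_sub, map_sub, mem_weightStab.1 (hw γ (hadm hγ) v₃),
      mem_weightStab.1 (hw γ (hadm hγ) v₁), mem_weightStab.1 (hw γ (hadm hγ) v₂),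
      ← mul_sub, ← mul_sub, mul_div_mul_left _ _ (pow_ne_zero _ (denomM_ne_zero γ))]

theorem exists_deuring :
    ∃ (C : VariableChange MeroH) (par : MeroH), IsModel deuringFam 9 C par := by
  have : CharZero MeroH := charZero_of_injective_ringHom const_injective
  set P : ZMod 3 × ZMod 3 := (0, 1)
  have hP : P ≠ 0 := by decide
  have hPP : P + P ≠ 0 := by decide
  set X₀ := xM 3 P
  set t₀ := yM 3 P
  have hy : ∀ τ, (yH 3 P + yH 3 P : holSubring).1 τ ≠ 0 := fun τ => by
    change ℘'[tauPair τ] (zV 3 P τ) / 2 + ℘'[tauPair τ] (zV 3 P τ) / 2 ≠ 0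
    rw [add_halves]
    exact derivWeierstrassP_zV_ne_zero hPP τ
  have ht : t₀ + t₀ ≠ 0 := by
    rw [show t₀ + t₀ = holHom (yH 3 P + yH 3 P) from (map_add holHom _ _).symm]
    exact holHom_ne_zero UpperHalfPlane.I (hy _)
  set s := (3 * X₀ ^ 2 + W0M.a₄) / (t₀ + t₀) with hs
  have hflex : s ^ 2 = 3 * X₀ := by
    have h : pM 3 P + pM 3 P = -pM 3 P := by
      rw [← pM_add, eq_neg_iff_add_eq_zero, ← pM_add,
        show P + P + P = 0 by decide, pM_zero]
    have hnot : ¬(X₀ = X₀ ∧ t₀ = W0M.toAffine.negY X₀ t₀) := by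
      rintro ⟨-, h'⟩
      simp only [Affine.negY, toAffine, W0M_a₁, W0M_a₃, zero_mul, sub_zero] at h'
      exact ht (by linear_combination h')
    rw [pM_of_ne hP, Affine.Point.add_some hnot, Affine.Point.neg_some,
      Affine.Point.some.injEq, Affine.slope_of_Y_ne rfl fun h' => hnot ⟨rfl, h'⟩] at h
    obtain ⟨hx, -⟩ := h
    simp only [Affine.addX, Affine.negY, toAffine, W0M_a₁, W0M_a₂, W0M_a₃, zero_mul, mul_zero,
      add_zero, sub_zero, sub_neg_eq_add] at hx
    rw [hs]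
    linear_combination hx
  obtain ⟨u, hu⟩ := exists_pow_eq_holHom hy three_ne_zero
  have hu3 : u ^ 3 = t₀ + t₀ := by rw [hu, map_add]; rfl
  have hu0 : u ≠ 0 := fun h0 => ht (by rw [← hu3, h0, zero_pow three_ne_zero])
  have hadm : adm 9 ≤ adm 3 := adm_le_of_dvd ⟨3, rfl⟩
  have hwX : ∀ γ ∈ adm 3, γ ∈ weightStab 2 X₀ := fun γ hγ =>
    mem_weightStab_xM (rowAct_of_mem_adm hγ P)
  have hwt : ∀ γ ∈ adm 3, γ ∈ weightStab 3 t₀ := fun γ hγ =>
    mem_weightStab_yM (rowAct_of_mem_adm hγ P)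
  have huw : adm 9 ≤ weightStab 1 u := by
    have h3 : ∀ γ ∈ adm 3, γ ^ 3 ∈ weightStab 1 u := fun γ hγ =>
      pow_mem_weightStab hu0 (by
        rw [hu3, mem_weightStab, map_add, mem_weightStab.1 (hwt γ hγ)]
        ring)
    rw [adm, sup_le_iff, Subgroup.zpowers_le, Subgroup.zpowers_le,
      show (9 : ℕ) = 3 * 3 from rfl, pow_mul, pow_mul]
    exact ⟨h3 _ (Subgroup.mem_sup_left (Subgroup.mem_zpowers _)),
      h3 _ (Subgroup.mem_sup_right (Subgroup.mem_zpowers _))⟩
  have hsw : ∀ γ ∈ adm 3, γ ∈ weightStab 1 s := fun γ hγ => by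
    rw [mem_weightStab, hs, map_div₀, map_add, map_mul, map_pow, map_ofNat,
      mem_weightStab.1 (hwX γ hγ), mem_weightStab.1 (weight_a₄ γ), map_add,
      mem_weightStab.1 (hwt γ hγ)]
    have := denomM_ne_zero γ
    field_simp
  refine ⟨⟨Units.mk0 u hu0, X₀, s, t₀⟩, 2 * s / u, ⟨?_, huw, fun γ hγ => hwX γ (hadm hγ),
    fun γ hγ => hsw γ (hadm hγ), fun γ hγ => hwt γ (hadm hγ), fun γ hγ => ?_⟩⟩
  · have heq := equation_M hP
    have hs' : s * (t₀ + t₀) = 3 * X₀ ^ 2 + W0M.a₄ := by rw [hs, div_mul_cancel₀ _ ht]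
    ext <;> simp only [variableChange_a₁, variableChange_a₂, variableChange_a₃, variableChange_a₄,
      variableChange_a₆, W0M_a₁, W0M_a₂, W0M_a₃, deuringFam, map_a₁, map_a₂, map_a₃, map_a₄,
      map_a₆, map_zero, map_one, coe_eval₂RingHom, eval₂_X,
      Units.val_inv_eq_inv_val, Units.val_mk0, inv_pow]
    · field_simp
      ring
    · rw [mul_eq_zero]
      right
      linear_combination -hflex
    · rw [hu3, inv_mul_eq_iff_eq_mul₀ ht]
      ring
    · rw [mul_eq_zero]
      right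
      linear_combination -hs'
    · rw [mul_eq_zero]
      right
      linear_combination -heq
  · rw [mem_weightStab_zero, map_div₀, map_mul, map_ofNat, mem_weightStab.1 (hsw γ (hadm hγ)),
      mem_weightStab.1 (huw hγ)]
    have := denomM_ne_zero γ
    field_simp

/-- The level of the group of unipotents preserving the coefficients of the model. -/
def admLevel (q : ℕ) : ℕ := if q = 2 then 9 else 4

theorem exists_model (q : ℕ) :
    ∃ (C : VariableChange MeroH) (par : MeroH), IsModel (famOf q) (admLevel q) C par := by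
  rcases eq_or_ne q 2 with rfl | h
  · simpa [admLevel, famOf_two] using exists_deuring
  · simpa [admLevel, famOf_of_ne_two h, h] using exists_legendre

theorem admLevel_dvd_auxLevel (q M' : ℕ) : admLevel q ∣ auxLevel q M' := by
  unfold admLevel auxLevel
  split_ifs <;> exact dvd_mul_right _ _

/-- `j` itself, as the invariant of the cubic. -/
theorem jQuot_empty_W0M {α : Type*} (x : α → MeroH) : jQuot W0M ∅ x = jMero := by
  have : CharZero MeroH := charZero_of_injective_ringHom const_injective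
  have hdet : 0 < (!![((1 : ℕ) : ℤ), 0; 0, ((1 : ℕ) : ℤ)]).det := by simp
  have h := jQuot_W0M (n := 1) (a := 1) (b := 1) dvd_rfl dvd_rfl hdet
  have hS : (subTors 1 1 1).erase 0 = ∅ := by
    ext v
    simp [Subsingleton.elim v 0]
  rw [hS, intComp_congr (M' := ((1 : SL(2, ℤ)) : Matrix (Fin 2) (Fin 2) ℤ)) _ (by simp)
    (by simp [Matrix.one_fin_two]), intComp_coe, slComp_one] at h
  rw [← h]
  simp [jQuot, quotG₂, quotG₃]

/-- The parameter is not constant. -/
theorem IsModel.ne_const {fam : WeierstrassCurve ℤ[X]} {m : ℕ} {C : VariableChange MeroH}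
    {par : MeroH} (h : IsModel fam m C par) (c : ℂ) : par ≠ const c := by
  have : CharZero MeroH := charZero_of_injective_ringHom const_injective
  intro hc
  have hW : C • W0M = (fam.map (eval₂RingHom (Int.castRingHom ℂ) c)).map const := by
    rw [h.curve_eq, WeierstrassCurve.map_map, hc]
    congr 1
    exact Polynomial.ringHom_ext (fun n => by simp) (by simp)
  have h1 := jQuot_variableChange C W0M (∅ : Finset Unit) (fun _ => 0) (fun _ => 0) (by simp)
  rw [jQuot_empty_W0M, hW] at h1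
  have h2 := map_jQuot (MeroH.const) (fam.map (eval₂RingHom (Int.castRingHom ℂ) c))
    (∅ : Finset Unit) (fun _ => 0)
  simp only [map_zero] at h2
  rw [← h2] at h1
  have h3 := MFGenus.eval₂_jMero_injective (a₁ := Polynomial.X)
    (a₂ := Polynomial.C (jQuot (fam.map (eval₂RingHom (Int.castRingHom ℂ) c)) ∅
      (fun _ : Unit => 0))) (by simpa using h1.symm)
  exact Polynomial.X_ne_C _ h3

end Fermat.Agent.Carayol
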