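import Fermat.Agent.Carayol.Bridge.Weierstrass
import Fermat.Agent.LevelOne.JBijective
import Fermat.Agent.Carayol.Bridge.JQuot
import Mathlib.NumberTheory.ModularForms.EisensteinSeries.Summable
import Mathlib.Analysis.Complex.LocallyUniformLimit

/-!
# The torsion of `ℂ / (ℤ τ + ℤ)` as a function of `τ`

The `n`-torsion of `ℂ / (ℤ τ + ℤ)`: the level structure, the quotient formula for `j`, the
transformation under `SL(2, ℤ)` and the holomorphy in `τ`.

Main result: `mdiff_sumInvPow_zV`.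
-/

set_option autoImplicit false

noncomputable section

open Complex Filter Topology
open UpperHalfPlane hiding I
open scoped MatrixGroups PeriodPair Manifold

namespace Fermat.Agent.Carayol

open Weier Fermat.Agent.LevelOne

/-- The torsion vector `(v₀ τ + v₁) / n`. -/
def zV (n : ℕ) (v : ZMod n × ZMod n) (τ : ℍ) : ℂ :=
  ((v.1.val : ℂ) * τ + (v.2.val : ℂ)) / n

/-- The image of a row vector under a matrix. -/
def rowAct {n : ℕ} (γ : SL(2, ℤ)) : ZMod n × ZMod n →+ ZMod n × ZMod n :=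
  AddMonoidHom.mk'
    (fun v => ((γ 0 0 : ZMod n) * v.1 + (γ 1 0 : ZMod n) * v.2,
      (γ 0 1 : ZMod n) * v.1 + (γ 1 1 : ZMod n) * v.2))
    fun v w => by ext <;> simp <;> ring

theorem mem_tauPair {τ : ℍ} {x : ℂ} :
    x ∈ (tauPair τ).lattice ↔ ∃ i j : ℤ, (i : ℂ) * τ + j = x := by
  rw [PeriodPair.mem_lattice]
  simp [tauPair]

theorem div_mem_tauPair_iff {n : ℕ} [NeZero n] {τ : ℍ} {a b : ℤ} :
    ((a : ℂ) * τ + b) / n ∈ (tauPair τ).lattice ↔ (n : ℤ) ∣ a ∧ (n : ℤ) ∣ b := by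
  have hn : (n : ℂ) ≠ 0 := Nat.cast_ne_zero.2 (NeZero.ne n)
  rw [mem_tauPair]
  refine ⟨fun ⟨i, j, h⟩ => ?_, fun ⟨⟨i, hi⟩, ⟨j, hj⟩⟩ => ⟨i, j, ?_⟩⟩
  · obtain ⟨h1, h2⟩ := int_coords_eq τ (a := (n : ℤ) * i) (b := (n : ℤ) * j) (c := a) (d := b) (by
      rw [eq_div_iff hn] at h
      push_cast
      linear_combination h)
    exact ⟨⟨i, h1.symm⟩, ⟨j, h2.symm⟩⟩
  · rw [hi, hj]
    push_cast
    field_simp

theorem zV_sub_mem {n : ℕ} [NeZero n] (v : ZMod n × ZMod n) (τ : ℍ) {a b : ℤ}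
    (ha : (a : ZMod n) = v.1) (hb : (b : ZMod n) = v.2) :
    ((a : ℂ) * τ + b) / n - zV n v τ ∈ (tauPair τ).lattice := by
  rw [zV, ← sub_div,
    show (a : ℂ) * τ + b - ((v.1.val : ℂ) * τ + (v.2.val : ℂ)) =
      ((a - (v.1.val : ℤ) : ℤ) : ℂ) * τ + ((b - (v.2.val : ℤ) : ℤ) : ℂ) by push_cast; ring,
    div_mem_tauPair_iff]
  constructor <;> rw [← ZMod.intCast_zmod_eq_zero_iff_dvd] <;>
    simp [ha, hb]

theorem zV_mem_iff {n : ℕ} [NeZero n] {v : ZMod n × ZMod n} {τ : ℍ} :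
    zV n v τ ∈ (tauPair τ).lattice ↔ v = 0 := by
  have h := div_mem_tauPair_iff (n := n) (τ := τ) (a := (v.1.val : ℤ)) (b := (v.2.val : ℤ))
  simp only [Int.cast_natCast] at h
  rw [zV, h, Prod.ext_iff, ← ZMod.intCast_zmod_eq_zero_iff_dvd, ← ZMod.intCast_zmod_eq_zero_iff_dvd]
  simp

theorem zV_add_mem {n : ℕ} [NeZero n] (v w : ZMod n × ZMod n) (τ : ℍ) :
    zV n v τ + zV n w τ - zV n (v + w) τ ∈ (tauPair τ).lattice := by
  have h := zV_sub_mem (v + w) τ (a := (v.1.val : ℤ) + w.1.val) (b := (v.2.val : ℤ) + w.2.val)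
    (by simp) (by simp)
  convert h using 1
  simp only [zV]
  push_cast
  ring

/-- The level structure of `ℂ / (ℤ τ + ℤ)`. -/
def torsHom (n : ℕ) [NeZero n] (τ : ℍ) :
    ZMod n × ZMod n →+ (curve (tauPair τ)).toAffine.Point :=
  AddMonoidHom.mk' (fun v => pt (tauPair τ) (Δ_curve_tauPair τ) (zV n v τ)) fun v w => by
    rw [← pt_add, pt_eq_iff, ← neg_mem_iff, neg_sub]
    exact zV_add_mem v w τ

theorem torsHom_apply {n : ℕ} [NeZero n] (τ : ℍ) (v : ZMod n × ZMod n) :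
    torsHom n τ v = pt (tauPair τ) (Δ_curve_tauPair τ) (zV n v τ) := rfl

theorem torsHom_injective {n : ℕ} [NeZero n] (τ : ℍ) : Function.Injective (torsHom n τ) := by
  rw [injective_iff_map_eq_zero]
  intro v hv
  rwa [torsHom_apply, pt_eq_zero_iff, zV_mem_iff] at hv

/-! ### The transformation under `SL(2, ℤ)` -/

theorem mem_tauPair_smul (γ : SL(2, ℤ)) (τ : ℍ) (x : ℂ) :
    ((γ 1 0 : ℂ) * τ + γ 1 1)⁻¹ * x ∈ (tauPair (γ • τ)).lattice ↔ x ∈ (tauPair τ).lattice := by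
  have hJ : (γ 1 0 : ℂ) * τ + γ 1 1 ≠ 0 := by
    have := UpperHalfPlane.denom_ne_zero (γ : GL (Fin 2) ℝ) τ
    simpa [UpperHalfPlane.denom] using this
  have hdet : (γ 0 0 : ℂ) * γ 1 1 - γ 0 1 * γ 1 0 = 1 := by
    have := γ.2
    rw [Matrix.det_fin_two] at this
    exact_mod_cast this
  have hnum : ((γ • τ : ℍ) : ℂ) = ((γ 0 0 : ℂ) * τ + γ 0 1) / ((γ 1 0 : ℂ) * τ + γ 1 1) := by
    rw [UpperHalfPlane.coe_specialLinearGroup_apply]
    simp
  rw [mem_tauPair, mem_tauPair, hnum]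
  set J : ℂ := (γ 1 0 : ℂ) * τ + γ 1 1 with hJd
  constructor
  · rintro ⟨i, j, h⟩
    refine ⟨i * γ 0 0 + j * γ 1 0, i * γ 0 1 + j * γ 1 1, ?_⟩
    field_simp at h
    push_cast
    linear_combination h - (j : ℂ) * hJd
  · rintro ⟨i, j, rfl⟩
    refine ⟨i * γ 1 1 - j * γ 1 0, -i * γ 0 1 + j * γ 0 0, ?_⟩
    field_simp
    push_cast
    linear_combination ((i : ℂ) * τ + j) * hdet + (-(i : ℂ) * γ 0 1 + j * γ 0 0) * hJd

theorem zV_smul_sub_mem {n : ℕ} [NeZero n] (γ : SL(2, ℤ)) (τ : ℍ) (v : ZMod n × ZMod n) :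
    ((γ 1 0 : ℂ) * τ + γ 1 1) * zV n v (γ • τ) - zV n (rowAct γ v) τ ∈ (tauPair τ).lattice := by
  have hJ : (γ 1 0 : ℂ) * τ + γ 1 1 ≠ 0 := by
    have := UpperHalfPlane.denom_ne_zero (γ : GL (Fin 2) ℝ) τ
    simpa [UpperHalfPlane.denom] using this
  have h := zV_sub_mem (rowAct γ v) τ (a := γ 0 0 * v.1.val + γ 1 0 * v.2.val)
    (b := γ 0 1 * v.1.val + γ 1 1 * v.2.val)
    (by simp [rowAct]) (by simp [rowAct])
  convert h using 2
  have hnum : ((γ • τ : ℍ) : ℂ) = ((γ 0 0 : ℂ) * τ + γ 0 1) / ((γ 1 0 : ℂ) * τ + γ 1 1) := by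
    rw [UpperHalfPlane.coe_specialLinearGroup_apply]
    simp
  rw [zV, hnum]
  field_simp
  push_cast
  ring

/-! ### The quotient formula -/

/-- The vectors killed by `(a, b)`. -/
def subTors (n a b : ℕ) [NeZero n] : Finset (ZMod n × ZMod n) :=
  Finset.univ.filter fun v => (a : ZMod n) * v.1 = 0 ∧ (b : ZMod n) * v.2 = 0

theorem mem_subTors {n a b : ℕ} [NeZero n] {v : ZMod n × ZMod n} :
    v ∈ subTors n a b ↔ (a : ZMod n) * v.1 = 0 ∧ (b : ZMod n) * v.2 = 0 := by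
  simp [subTors]

/-- `g₂` of the quotient, as a polynomial in `g₂` and the abscissae. -/
def sumG₂ {R : Type*} [CommRing R] {α : Type*} (g₂ : R) (S : Finset α) (x : α → R) : R :=
  g₂ + ∑ a ∈ S, (60 * x a ^ 2 - 5 * g₂)

/-- `g₃` of the quotient, as a polynomial in `g₂`, `g₃` and the abscissae. -/
def sumG₃ {R : Type*} [CommRing R] {α : Type*} (g₂ g₃ : R) (S : Finset α) (x : α → R) : R :=
  g₃ + ∑ a ∈ S, (140 * x a ^ 3 - 21 * g₂ * x a - 14 * g₃)

theorem jQuot_cubic {F : Type*} [Field F] [CharZero F] {α : Type*} (g₂ g₃ : F) (S : Finset α)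
    (x : α → F) :
    jQuot ⟨0, 0, 0, -g₂ / 4, -g₃ / 4⟩ S x = jFromInv (sumG₂ g₂ S x) (sumG₃ g₂ g₃ S x) := by
  simp only [jQuot, quotG₂, quotG₃, sumG₂, sumG₃, WeierstrassCurve.c₄, WeierstrassCurve.c₆,
    WeierstrassCurve.b₂, WeierstrassCurve.b₄, WeierstrassCurve.b₆]
  congr 1
  · refine congrArg₂ (· + ·) (by ring) (Finset.sum_congr rfl fun a _ => by ring)
  · refine congrArg₂ (· + ·) (by ring) (Finset.sum_congr rfl fun a _ => by ring)

/-- **The quotient formula**: `j` of the lattice `ℤ τ/a + ℤ/b`. -/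
theorem jFun_quotient {n a b : ℕ} [NeZero n] (ha : a ∣ n) (hb : b ∣ n) {τ τ' : ℍ}
    (hτ' : (τ' : ℂ) = b * τ / a) :
    let S := (subTors n a b).erase 0
    let x := fun v => ℘[tauPair τ] (zV n v τ)
    let A := sumG₂ (tauPair τ).g₂ S x
    let B := sumG₃ (tauPair τ).g₂ (tauPair τ).g₃ S x
    A ^ 3 - 27 * B ^ 2 ≠ 0 ∧ jFun τ' * (A ^ 3 - 27 * B ^ 2) = 1728 * A ^ 3 := by
  intro S x A B
  obtain ⟨ka, hka⟩ := ha
  obtain ⟨kb, hkb⟩ := hb
  have hn : (n : ℂ) ≠ 0 := Nat.cast_ne_zero.2 (NeZero.ne n)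
  have ha0 : (a : ℂ) ≠ 0 := Nat.cast_ne_zero.2 fun h => NeZero.ne n (by rw [hka, h, zero_mul])
  have hb0 : (b : ℂ) ≠ 0 := Nat.cast_ne_zero.2 fun h => NeZero.ne n (by rw [hkb, h, zero_mul])
  have hnaC : (n : ℂ) = a * ka := by exact_mod_cast congrArg (Nat.cast : ℕ → ℂ) hka
  have hnbC : (n : ℂ) = b * kb := by exact_mod_cast congrArg (Nat.cast : ℕ → ℂ) hkb
  set M := scalePair (tauPair τ') (inv_ne_zero hb0)
  have hM : ∀ y, y ∈ M.lattice ↔ ∃ i j : ℤ, (i : ℂ) * (τ / a) + j / b = y := by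
    intro y
    rw [PeriodPair.mem_lattice]
    simp only [M, scalePair, tauPair, hτ', mul_one]
    refine exists_congr fun i => exists_congr fun j => ?_
    rw [show (b : ℂ)⁻¹ * (b * τ / a) = τ / a by field_simp, ← div_eq_mul_inv]
  have hle : (tauPair τ).lattice ≤ M.lattice := by
    intro y hy
    obtain ⟨i, j, rfl⟩ := mem_tauPair.1 hy
    refine (hM _).2 ⟨i * a, j * b, ?_⟩
    push_cast
    field_simp
  have hmem : ∀ v ∈ subTors n a b, zV n v τ ∈ M.lattice := by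
    intro v hv
    rw [mem_subTors] at hv
    obtain ⟨⟨i, hi⟩, ⟨j, hj⟩⟩ : ((n : ℤ) ∣ a * v.1.val) ∧ ((n : ℤ) ∣ b * v.2.val) := by
      constructor <;> rw [← ZMod.intCast_zmod_eq_zero_iff_dvd] <;>
        simp [hv.1, hv.2]
    refine (hM _).2 ⟨i, j, ?_⟩
    have hi' : (a : ℂ) * v.1.val = n * i := by exact_mod_cast congrArg (Int.cast : ℤ → ℂ) hi
    have hj' : (b : ℂ) * v.2.val = n * j := by exact_mod_cast congrArg (Int.cast : ℤ → ℂ) hj
    rw [zV]
    field_simp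
    linear_combination -(τ : ℂ) * b * hi' - a * hj'
  have hex : ∀ y ∈ M.lattice, ∃ v : subTors n a b, y + zV n v τ ∈ (tauPair τ).lattice := by
    intro y hy
    obtain ⟨i, j, rfl⟩ := (hM y).1 hy
    refine ⟨⟨(((-i * ka : ℤ) : ZMod n), ((-j * kb : ℤ) : ZMod n)), mem_subTors.2 ⟨?_, ?_⟩⟩, ?_⟩
    · have hzero : (a : ZMod n) * ka = 0 := by
        rw [← Nat.cast_mul, ← hka, ZMod.natCast_self]
      push_cast
      linear_combination (-(i : ZMod n)) * hzero
    · have hzero : (b : ZMod n) * kb = 0 := by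
        rw [← Nat.cast_mul, ← hkb, ZMod.natCast_self]
      push_cast
      linear_combination (-(j : ZMod n)) * hzero
    · have h := zV_sub_mem
        (((-i * ka : ℤ) : ZMod n), ((-j * kb : ℤ) : ZMod n)) τ (a := -i * ka) (b := -j * kb) rfl rfl
      rw [← neg_mem_iff, neg_sub] at h
      have hka0 : (ka : ℂ) ≠ 0 := fun h0 => hn (by rw [hnaC, h0, mul_zero])
      have hkb0 : (kb : ℂ) ≠ 0 := fun h0 => hn (by rw [hnbC, h0, mul_zero])
      have e1 : (τ : ℂ) / a = ka * τ / n := by rw [hnaC]; field_simp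
      have e2 : (j : ℂ) / b = j * kb / n := by rw [hnbC]; field_simp
      convert h using 1
      rw [e1, e2]
      push_cast
      ring
  have huniq : ∀ v w : subTors n a b, zV n v τ - zV n w τ ∈ (tauPair τ).lattice → v = w :=
    fun v w h =>
      Subtype.ext (torsHom_injective τ (by rwa [torsHom_apply, torsHom_apply, pt_eq_iff]))
  have hG : ∀ r, 2 < r → M.G r = ∑ v : subTors n a b, (tauPair τ).sumInvPow (zV n v τ) r :=
    fun r hr => G_overlattice (fun v : subTors n a b => zV n v τ) hle (fun v => hmem v v.2) hex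
      huniq hr
  have h0 : (0 : ZMod n × ZMod n) ∈ subTors n a b := mem_subTors.2 (by simp)
  have hz0 : zV n 0 τ = 0 := by simp [zV]
  have hx : ∀ v ∈ S, zV n v τ ∉ (tauPair τ).lattice := fun v hv h =>
    (Finset.mem_erase.1 hv).1 (zV_mem_iff.1 h)
  have hA : M.g₂ = A := by
    rw [PeriodPair.g₂, hG 4 (by norm_num),
      Finset.sum_coe_sort (subTors n a b) (fun v => (tauPair τ).sumInvPow (zV n v τ) 4),
      ← Finset.add_sum_erase _ _ h0, hz0, PeriodPair.sumInvPow_zero, mul_add, Finset.mul_sum]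
    refine congrArg₂ (· + ·) rfl (Finset.sum_congr rfl fun v hv => ?_)
    rw [sumInvPow_four _ (hx v hv)]
    simp only [x]
    ring
  have hB : M.g₃ = B := by
    rw [PeriodPair.g₃, hG 6 (by norm_num),
      Finset.sum_coe_sort (subTors n a b) (fun v => (tauPair τ).sumInvPow (zV n v τ) 6),
      ← Finset.add_sum_erase _ _ h0, hz0, PeriodPair.sumInvPow_zero, mul_add, Finset.mul_sum]
    refine congrArg₂ (· + ·) rfl (Finset.sum_congr rfl fun v hv => ?_)
    rw [sumInvPow_six _ (hx v hv)]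
    simp only [x]
    ring
  have h4 : M.g₂ = (b : ℂ) ^ 4 * (tauPair τ').g₂ := by
    rw [PeriodPair.g₂, PeriodPair.g₂, G_scalePair _ _ 4]
    simp
    ring
  have h6 : M.g₃ = (b : ℂ) ^ 6 * (tauPair τ').g₃ := by
    rw [PeriodPair.g₃, PeriodPair.g₃, G_scalePair _ _ 6]
    simp
    ring
  rw [← hA, ← hB, h4, h6]
  have hd := discr_tauPair_ne_zero τ'
  refine ⟨?_, ?_⟩
  · rw [show ((b : ℂ) ^ 4 * (tauPair τ').g₂) ^ 3 - 27 * ((b : ℂ) ^ 6 * (tauPair τ').g₃) ^ 2 =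
      (b : ℂ) ^ 12 * ((tauPair τ').g₂ ^ 3 - 27 * (tauPair τ').g₃ ^ 2) by ring]
    exact mul_ne_zero (pow_ne_zero _ hb0) hd
  · rw [jFun_eq_g, div_mul_eq_mul_div, div_eq_iff hd]
    ring

/-! ### Holomorphy -/

theorem mdiff_of_differentiableAt {f : ℍ → ℂ} {g : ℂ → ℂ}
    (hfg : ∀ τ : ℍ, f τ = g τ) (hg : ∀ τ : ℍ, DifferentiableAt ℂ g τ) : MDiff f := by
  rw [UpperHalfPlane.mdifferentiable_iff]
  intro z hz
  refine (hg ⟨z, hz⟩).differentiableWithinAt.congr (fun w hw => ?_) ?_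
  · simp only [Function.comp_apply]
    rw [hfg, ofComplex_apply_of_im_pos hw]
  · simp only [Function.comp_apply]
    rw [hfg, ofComplex_apply_of_im_pos hz]

/-- Partial Eisenstein sums over a congruence class are holomorphic. -/
theorem mdiff_tsum_class (k : ℕ) (hk : 3 ≤ k) (c : (Fin 2 → ℤ) → ℂ) (hc : ∀ x, ‖c x‖ ≤ 1) :
    MDiff (fun τ : ℍ => ∑' x : Fin 2 → ℤ, c x * (((x 0 : ℂ) * τ + x 1) ^ k)⁻¹) := by
  refine mdiff_of_differentiableAt
    (g := fun z : ℂ => ∑' x : Fin 2 → ℤ, c x * (((x 0 : ℂ) * z + x 1) ^ k)⁻¹) (fun τ => rfl) ?_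
  intro τ
  set A : ℝ := |(τ : ℂ).re| + 1
  set B : ℝ := (τ : ℂ).im / 2
  have hB : 0 < B := by
    have := τ.im_pos
    simp only [B, UpperHalfPlane.coe_im]
    positivity
  set U : Set ℂ := {z | |z.re| < A ∧ B < z.im}
  have hU : IsOpen U := (isOpen_lt Complex.continuous_re.abs continuous_const).inter
    (isOpen_lt continuous_const Complex.continuous_im)
  have hτ : (τ : ℂ) ∈ U := ⟨lt_add_one _, half_lt_self τ.im_pos⟩
  refine (differentiableOn_tsum_of_summable_norm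
    (u := fun x : Fin 2 → ℤ => EisensteinSeries.r ⟨⟨A, B⟩, hB⟩ ^ (-(k : ℝ)) * ‖x‖ ^ (-(k : ℝ)))
    ((EisensteinSeries.summable_one_div_norm_rpow (by exact_mod_cast hk)).mul_left _)
    (fun x => ?_) hU fun x z hz => ?_).differentiableAt (hU.mem_nhds hτ)
  · intro z hz
    by_cases hx : x = 0
    · subst hx
      simp [zero_pow (show k ≠ 0 by omega), differentiableWithinAt_const]
    · refine DifferentiableAt.differentiableWithinAt ?_
      have hzim : 0 < z.im := hB.trans hz.2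
      have hne : (x 0 : ℂ) * z + x 1 ≠ 0 := fun h => hx (by
        obtain ⟨h1, h2⟩ := int_coords_eq ⟨z, hzim⟩ (a := x 0) (b := x 1) (c := 0) (d := 0)
          (by simpa using h)
        funext i
        fin_cases i <;> assumption)
      fun_prop (disch := simpa using pow_ne_zero k hne)
  · have hzim : 0 < z.im := hB.trans hz.2
    have h := EisensteinSeries.summand_bound_of_mem_verticalStrip (z := ⟨z, hzim⟩)
      (k := (k : ℝ)) (by positivity) x hB ⟨hz.1.le, hz.2.le⟩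
    rw [norm_mul, norm_inv, norm_pow]
    refine (mul_le_of_le_one_left (by positivity) (hc x)).trans ?_
    rwa [← Real.rpow_natCast, ← Real.rpow_neg (norm_nonneg _)]

theorem sumInvPow_zV {n : ℕ} [NeZero n] (v : ZMod n × ZMod n) {k : ℕ} (τ : ℍ) :
    (tauPair τ).sumInvPow (zV n v τ) k = (n : ℂ) ^ k * ∑' x : Fin 2 → ℤ,
      (if ((x 0 : ZMod n), (x 1 : ZMod n)) = -v then (1 : ℂ) else 0) *
        (((x 0 : ℂ) * τ + x 1) ^ k)⁻¹ := by
  have hn : (n : ℂ) ≠ 0 := Nat.cast_ne_zero.2 (NeZero.ne n)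
  let e : ℤ × ℤ → Fin 2 → ℤ := fun p => ![(n : ℤ) * p.1 - v.1.val, (n : ℤ) * p.2 - v.2.val]
  have he : Function.Injective e := fun p q h => by
    have h0 := congrFun h 0
    have h1 := congrFun h 1
    have hn' : (n : ℤ) ≠ 0 := Nat.cast_ne_zero.2 (NeZero.ne n)
    simp only [e, Matrix.cons_val_zero, Matrix.cons_val_one, sub_left_inj] at h0 h1
    exact Prod.ext (mul_left_cancel₀ hn' h0) (mul_left_cancel₀ hn' h1)
  have hsupp : Function.support (fun x : Fin 2 → ℤ =>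
      (if ((x 0 : ZMod n), (x 1 : ZMod n)) = -v then (1 : ℂ) else 0) *
        (((x 0 : ℂ) * τ + x 1) ^ k)⁻¹) ⊆ Set.range e := by
    intro x hx
    simp only [Function.mem_support, ne_eq, mul_eq_zero, not_or] at hx
    have hxv : ((x 0 : ZMod n), (x 1 : ZMod n)) = -v := by
      by_contra h
      exact hx.1 (if_neg h)
    obtain ⟨i, hi⟩ : (n : ℤ) ∣ x 0 + v.1.val := by
      rw [← ZMod.intCast_zmod_eq_zero_iff_dvd]
      have := congrArg Prod.fst hxv
      simp at this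
      simp [this]
    obtain ⟨j, hj⟩ : (n : ℤ) ∣ x 1 + v.2.val := by
      rw [← ZMod.intCast_zmod_eq_zero_iff_dvd]
      have := congrArg Prod.snd hxv
      simp at this
      simp [this]
    refine ⟨(i, j), funext fun t => ?_⟩
    fin_cases t <;>
      simp only [e, Fin.mk_zero, Fin.mk_one, Matrix.cons_val_zero, Matrix.cons_val_one,
        Fin.isValue] <;>
      omega
  rw [← he.tsum_eq hsupp, ← tsum_mul_left, PeriodPair.sumInvPow,
    ← (tauPair τ).latticeEquivProd.symm.toEquiv.tsum_eq]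
  refine tsum_congr fun p => ?_
  have hp : (((tauPair τ).latticeEquivProd.symm.toEquiv p : (tauPair τ).lattice) : ℂ) =
      p.1 * τ + p.2 := by
    rw [LinearEquiv.coe_toEquiv, PeriodPair.latticeEquiv_symm_apply]
    simp [tauPair]
  have he0 : (((e p 0 : ℤ) : ZMod n), ((e p 1 : ℤ) : ZMod n)) = -v := by simp [e, Prod.ext_iff]
  rw [if_pos he0, one_mul]
  simp only [hp, e, Matrix.cons_val_zero, Matrix.cons_val_one]
  have hX : ((((n : ℤ) * p.1 - v.1.val : ℤ) : ℂ) * τ + (((n : ℤ) * p.2 - v.2.val : ℤ) : ℂ)) =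
      (n : ℂ) * ((p.1 : ℂ) * τ + p.2 - zV n v τ) := by
    rw [zV]
    push_cast
    field_simp
    ring
  rw [hX, mul_pow, mul_inv, ← mul_assoc, mul_inv_cancel₀ (pow_ne_zero k hn), one_mul]

/-- The shifted Eisenstein sums are holomorphic in `τ`. -/
theorem mdiff_sumInvPow_zV {n : ℕ} [NeZero n] (v : ZMod n × ZMod n) {k : ℕ} (hk : 3 ≤ k) :
    MDiff (fun τ : ℍ => (tauPair τ).sumInvPow (zV n v τ) k) := by
  rw [funext fun τ => sumInvPow_zV v τ]
  exact mdifferentiable_const.mul (mdiff_tsum_class k hk _ fun x => by split_ifs <;> simp)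

end Fermat.Agent.Carayol
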