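import Fermat.Agent.Carayol.Bridge.Tau
import Fermat.Agent.MFGenus.HolHom

/-!
# The level structure on the universal cubic

The full level structure on the cubic `y² = x³ - (g₂/4) x - g₃/4` over the field of meromorphic
functions on the upper half plane, its behaviour under `SL(2, ℤ)`, and the quotient formula.

Main result: `jQuot_W0M`.
-/

set_option autoImplicit false

noncomputable section

open Complex Filter Topology
open UpperHalfPlane hiding I
open scoped MatrixGroups PeriodPair Manifold Classical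

namespace Fermat.Agent.Carayol

open Weier Fermat.Agent.LevelOne Fermat.Agent.Kummer Fermat.Agent.Kummer.MeroH
open Fermat.Agent.MFGenus (holSubring holHom holHom_injective)

/-! ### Holomorphic functions -/

/-- Evaluation of a holomorphic function. -/
def evH (τ : ℍ) : holSubring →+* ℂ :=
  (Pi.evalRingHom (fun _ : ℍ => ℂ) τ).comp holSubring.subtype

theorem evH_apply (τ : ℍ) (f : holSubring) : evH τ f = f.1 τ := rfl

theorem holSubring_ext {f g : holSubring} (h : ∀ τ, f.1 τ = g.1 τ) : f = g :=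
  Subtype.ext (funext h)

theorem holHom_ne_zero {f : holSubring} (τ : ℍ) (h : f.1 τ ≠ 0) : holHom f ≠ 0 := fun h0 =>
  h (by rw [← map_zero holHom] at h0; rw [holHom_injective h0]; rfl)

theorem mdiff_div {f g : ℍ → ℂ} (hf : MDiff f) (hg : MDiff g) (h : ∀ τ, g τ ≠ 0) :
    MDiff (f / g) := by
  rw [UpperHalfPlane.mdifferentiable_iff] at hf hg ⊢
  exact hf.div hg fun z _ => h _

/-- A quotient by a function without zeros. -/
def hDiv (f g : holSubring) (hg : ∀ τ, g.1 τ ≠ 0) : holSubring :=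
  ⟨f.1 / g.1, mdiff_div f.2 g.2 hg⟩

theorem holHom_hDiv (f g : holSubring) (hg : ∀ τ, g.1 τ ≠ 0) :
    holHom (hDiv f g hg) = holHom f / holHom g := by
  rw [eq_div_iff (holHom_ne_zero UpperHalfPlane.I (hg _)), ← map_mul]
  exact congrArg holHom (holSubring_ext fun τ => div_mul_cancel₀ (f.1 τ) (hg τ))

/-- A constant function. -/
def constH : ℂ →+* holSubring :=
  (Pi.constRingHom ℍ ℂ).codRestrict _ fun _ => mdifferentiable_const

/-- `g₂` of `ℤ τ + ℤ`. -/
def g₂H : holSubring :=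
  ⟨fun τ => (tauPair τ).g₂, by
    rw [funext fun τ => (g_tauPair τ).1]
    exact mdifferentiable_const.mul (ModularForm.E (by norm_num : 3 ≤ 4)).holo'⟩

/-- `g₃` of `ℤ τ + ℤ`. -/
def g₃H : holSubring :=
  ⟨fun τ => (tauPair τ).g₃, by
    rw [funext fun τ => (g_tauPair τ).2]
    exact mdifferentiable_const.mul (ModularForm.E (by norm_num : 3 ≤ 6)).holo'⟩

theorem zV_lift {n : ℕ} [NeZero n] (v : ZMod n × ZMod n) (τ : ℍ) :
    zV (4 * n) (((4 * v.1.val : ℕ) : ZMod (4 * n)), ((4 * v.2.val : ℕ) : ZMod (4 * n))) τ =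
      zV n v τ := by
  have h1 : 4 * v.1.val < 4 * n := Nat.mul_lt_mul_of_pos_left v.1.val_lt (by norm_num)
  have h2 : 4 * v.2.val < 4 * n := Nat.mul_lt_mul_of_pos_left v.2.val_lt (by norm_num)
  simp only [zV, ZMod.val_natCast_of_lt h1, ZMod.val_natCast_of_lt h2]
  push_cast
  field_simp

theorem mdiff_derivWeierstrassP_zV {n : ℕ} [NeZero n] (v : ZMod n × ZMod n) :
    MDiff (fun τ : ℍ => ℘'[tauPair τ] (zV n v τ) / 2) := by
  have : (fun τ : ℍ => ℘'[tauPair τ] (zV n v τ) / 2) =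
      fun τ : ℍ => (tauPair τ).sumInvPow (zV n v τ) 3 := funext fun τ => by
    rw [derivWeierstrassP_eq_sumInvPow]; ring
  rw [this]
  exact mdiff_sumInvPow_zV v le_rfl

theorem derivWeierstrassP_zV_ne_zero {n : ℕ} [NeZero n] {v : ZMod n × ZMod n} (h : v + v ≠ 0)
    (τ : ℍ) : ℘'[tauPair τ] (zV n v τ) ≠ 0 := by
  intro h0
  have hv : v ≠ 0 := by rintro rfl; simp at h
  have hz : zV n v τ ∉ (tauPair τ).lattice := fun hh => hv (zV_mem_iff.1 hh)
  refine h (torsHom_injective τ ?_)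
  rw [map_add, map_zero]
  simp only [torsHom_apply, pt_of_notMem _ hz]
  exact WeierstrassCurve.Affine.Point.add_of_Y_eq rfl
    (by simp [WeierstrassCurve.Affine.negY, curve, h0])

theorem mdiff_wp_of_order {n : ℕ} [NeZero n] {v : ZMod n × ZMod n} (h : v + v ≠ 0) :
    MDiff (fun τ : ℍ => ℘[tauPair τ] (zV n v τ)) := by
  have hv : v ≠ 0 := by rintro rfl; simp at h
  have heq : (fun τ : ℍ => ℘[tauPair τ] (zV n v τ)) =
      (fun τ : ℍ => 2 * (tauPair τ).sumInvPow (zV n v τ) 5) /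
        fun τ : ℍ => ℘'[tauPair τ] (zV n v τ) := funext fun τ => by
    rw [Pi.div_apply, sumInvPow_five _ fun hh => hv (zV_mem_iff.1 hh),
      eq_div_iff (derivWeierstrassP_zV_ne_zero h τ)]
    ring
  have hden : MDiff (fun τ : ℍ => ℘'[tauPair τ] (zV n v τ)) := by
    have := (mdiff_derivWeierstrassP_zV v).mul (mdifferentiable_const (c := (2 : ℂ)))
    have e : ((fun τ : ℍ => ℘'[tauPair τ] (zV n v τ) / 2) * fun _ => (2 : ℂ)) =
        fun τ : ℍ => ℘'[tauPair τ] (zV n v τ) := funext fun τ => by simp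
    rwa [e] at this
  rw [heq]
  exact mdiff_div (mdifferentiable_const.mul (mdiff_sumInvPow_zV v (by norm_num))) hden
    (derivWeierstrassP_zV_ne_zero h)

theorem mdiff_wp_of_four_dvd {n : ℕ} [NeZero n] (hn : 4 ∣ n) (v : ZMod n × ZMod n) :
    MDiff (fun τ : ℍ => ℘[tauPair τ] (zV n v τ)) := by
  by_cases h : v + v ≠ 0
  · exact mdiff_wp_of_order h
  push Not at h
  by_cases hv : v = 0
  · subst hv
    have : (fun τ : ℍ => ℘[tauPair τ] (zV n 0 τ)) = fun _ => 0 := funext fun τ => by simp [zV]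
    rw [this]
    exact mdifferentiable_const
  obtain ⟨P, hPP, hP4⟩ : ∃ P : ZMod n × ZMod n, P + P ≠ v ∧ P + P ≠ 0 := by
    obtain ⟨m, rfl⟩ := hn
    have hm : 0 < m := Nat.pos_of_ne_zero fun h0 => NeZero.ne (4 * m) (by simp [h0])
    have h2 : ((1 : ZMod (4 * m)) + 1) ≠ 0 := by
      rw [one_add_one_eq_two, show (2 : ZMod (4 * m)) = ((2 : ℕ) : ZMod (4 * m)) by norm_num, Ne,
        ZMod.natCast_eq_zero_iff]
      intro h'
      have := Nat.le_of_dvd two_pos h'
      omega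
    by_cases h1 : ((1 + 1 : ZMod (4 * m)), (0 : ZMod (4 * m))) = v
    · refine ⟨(1, 1), fun h' => h2 ?_, fun h' => h2 (congrArg Prod.fst h')⟩
      rw [← h1] at h'
      exact congrArg Prod.snd h'
    · refine ⟨(1, 0), fun h' => h1 ?_, fun h' => h2 (congrArg Prod.fst h')⟩
      rw [← h']
      simp
  have hQQ : (v - P) + (v - P) ≠ 0 := fun h' => hP4 (by
    rw [show (v - P) + (v - P) = (v + v) - (P + P) by abel, h, zero_sub, neg_eq_zero] at h'
    exact h')
  have hP0 : P ≠ 0 := by rintro rfl; simp at hP4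
  have hQ0 : v - P ≠ 0 := fun h' => hQQ (by rw [h', add_zero])
  have hne : ∀ τ, ℘[tauPair τ] (zV n P τ) ≠ ℘[tauPair τ] (zV n (v - P) τ) := by
    intro τ h'
    rw [weierstrassP_eq_iff (Δ_curve_tauPair τ) (fun hh => hP0 (zV_mem_iff.1 hh))
      (fun hh => hQ0 (zV_mem_iff.1 hh))] at h'
    rcases h' with h' | h'
    · refine hPP ?_
      have h'' : torsHom n τ P = torsHom n τ (v - P) := by
        rwa [torsHom_apply, torsHom_apply, pt_eq_iff]
      exact eq_sub_iff_add_eq.1 (torsHom_injective τ h'')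
    · refine hv ((zV_mem_iff (τ := τ)).1 ?_)
      have h'' := zV_add_mem P (v - P) τ
      rw [add_sub_cancel] at h''
      simpa using sub_mem h' h''
  have heq : (fun τ : ℍ => ℘[tauPair τ] (zV n v τ)) = fun τ : ℍ =>
      ((℘'[tauPair τ] (zV n P τ) / 2 - ℘'[tauPair τ] (zV n (v - P) τ) / 2) /
        (℘[tauPair τ] (zV n P τ) - ℘[tauPair τ] (zV n (v - P) τ))) ^ 2 -
        ℘[tauPair τ] (zV n P τ) - ℘[tauPair τ] (zV n (v - P) τ) := funext fun τ => by
    have h'' := zV_add_mem P (v - P) τ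
    rw [add_sub_cancel] at h''
    have hper := (tauPair τ).weierstrassP_add_coe (zV n v τ) ⟨_, h''⟩
    simp only [add_sub_cancel] at hper
    rw [← hper, weierstrassP_add _ (fun hh => hP0 (zV_mem_iff.1 hh))
      (fun hh => hQ0 (zV_mem_iff.1 hh)) (hne τ), ← sub_div]
    ring
  rw [heq]
  have hAP := mdiff_wp_of_order hP4
  have hAQ := mdiff_wp_of_order hQQ
  refine MDifferentiable.sub (MDifferentiable.sub (MDifferentiable.pow ?_ 2) hAP) hAQ
  exact mdiff_div ((mdiff_derivWeierstrassP_zV P).sub (mdiff_derivWeierstrassP_zV (v - P)))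
    (hAP.sub hAQ) fun τ => sub_ne_zero.2 (hne τ)

theorem mdiff_wp {n : ℕ} [NeZero n] (v : ZMod n × ZMod n) :
    MDiff (fun τ : ℍ => ℘[tauPair τ] (zV n v τ)) := by
  have := mdiff_wp_of_four_dvd (dvd_mul_right 4 n)
    (((4 * v.1.val : ℕ) : ZMod (4 * n)), ((4 * v.2.val : ℕ) : ZMod (4 * n)))
  simpa only [zV_lift] using this

/-- The abscissa of a torsion vector. -/
def xH (n : ℕ) [NeZero n] (v : ZMod n × ZMod n) : holSubring :=
  ⟨fun τ => ℘[tauPair τ] (zV n v τ), mdiff_wp v⟩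

/-- The ordinate of a torsion vector. -/
def yH (n : ℕ) [NeZero n] (v : ZMod n × ZMod n) : holSubring :=
  ⟨fun τ => ℘'[tauPair τ] (zV n v τ) / 2, mdiff_derivWeierstrassP_zV v⟩

/-- The cubic over the holomorphic functions. -/
def W0H : WeierstrassCurve holSubring :=
  ⟨0, 0, 0, -g₂H * constH (1 / 4), -g₃H * constH (1 / 4)⟩

theorem map_W0H (τ : ℍ) : W0H.map (evH τ) = curve (tauPair τ) := by
  ext <;> simp [W0H, curve, evH, g₂H, g₃H, constH] <;> ring

theorem map_W0H_affine (τ : ℍ) :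
    W0H.toAffine.map (evH τ) = (curve (tauPair τ)).toAffine := map_W0H τ

/-- The cubic over `MeroH`. -/
def W0M : WeierstrassCurve MeroH := W0H.map holHom

theorem Δ_W0M_ne_zero : W0M.Δ ≠ 0 := by
  rw [W0M, WeierstrassCurve.map_Δ]
  refine holHom_ne_zero UpperHalfPlane.I ?_
  rw [← evH_apply, ← WeierstrassCurve.map_Δ, map_W0H]
  exact Δ_curve_tauPair _

instance isElliptic_W0M : W0M.IsElliptic := ⟨Ne.isUnit Δ_W0M_ne_zero⟩

/-- The abscissa in `MeroH`. -/
def xM (n : ℕ) [NeZero n] (v : ZMod n × ZMod n) : MeroH := holHom (xH n v)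

/-- The ordinate in `MeroH`. -/
def yM (n : ℕ) [NeZero n] (v : ZMod n × ZMod n) : MeroH := holHom (yH n v)

theorem nonsingular_M {n : ℕ} [NeZero n] {v : ZMod n × ZMod n} (hv : v ≠ 0) :
    W0M.toAffine.Nonsingular (xM n v) (yM n v) := by
  refine (WeierstrassCurve.Affine.equation_iff_nonsingular_of_Δ_ne_zero Δ_W0M_ne_zero).1 ?_
  refine WeierstrassCurve.Affine.Equation.map holHom ?_
  rw [WeierstrassCurve.Affine.equation_iff]
  refine holSubring_ext fun τ => ?_
  have h := equation_wp (tauPair τ) (z := zV n v τ) (fun hh => hv (zV_mem_iff.1 hh))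
  rw [WeierstrassCurve.Affine.equation_iff] at h
  simp [W0H, curve, xH, yH, g₂H, g₃H, constH] at h ⊢
  linear_combination h

/-- The point attached to a torsion vector. -/
def pM (n : ℕ) [NeZero n] (v : ZMod n × ZMod n) : W0M.toAffine.Point :=
  if hv : v = 0 then 0 else .some _ _ (nonsingular_M hv)

theorem pM_of_ne {n : ℕ} [NeZero n] {v : ZMod n × ZMod n} (hv : v ≠ 0) :
    pM n v = .some _ _ (nonsingular_M hv) := dif_neg hv

theorem pM_zero {n : ℕ} [NeZero n] : pM n 0 = 0 := dif_pos rfl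

theorem torsHom_of_ne {n : ℕ} [NeZero n] {v : ZMod n × ZMod n} (hv : v ≠ 0) (τ : ℍ) :
    torsHom n τ v = .some _ _ (nonsingular_wp (tauPair τ) (Δ_curve_tauPair τ) (z := zV n v τ)
      fun h => hv (zV_mem_iff.1 h)) :=
  by rw [torsHom_apply, pt_of_notMem _ fun h => hv (zV_mem_iff.1 h)]

theorem pM_add (n : ℕ) [NeZero n] (v w : ZMod n × ZMod n) :
    pM n (v + w) = pM n v + pM n w := by
  rcases eq_or_ne v 0 with rfl | hv
  · rw [zero_add, pM_zero, zero_add]
  rcases eq_or_ne w 0 with rfl | hw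
  · rw [add_zero, pM_zero, add_zero]
  by_cases hvw : v + w = 0
  · have h : ∀ τ, torsHom n τ v + torsHom n τ w = 0 := fun τ => by
      rw [← map_add, hvw, map_zero]
    have hx : xH n v = xH n w ∧ yH n v = W0H.toAffine.negY (xH n w) (yH n w) := by
      have key : ∀ τ, ℘[tauPair τ] (zV n v τ) = ℘[tauPair τ] (zV n w τ) ∧
          ℘'[tauPair τ] (zV n v τ) / 2 = (curve (tauPair τ)).toAffine.negY
            (℘[tauPair τ] (zV n w τ)) (℘'[tauPair τ] (zV n w τ) / 2) := fun τ => by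
        by_contra hne
        have := h τ
        rw [torsHom_of_ne hv, torsHom_of_ne hw, WeierstrassCurve.Affine.Point.add_some hne] at this
        exact WeierstrassCurve.Affine.Point.some_ne_zero _ this
      refine ⟨holSubring_ext fun τ => (key τ).1, holSubring_ext fun τ => ?_⟩
      rw [← evH_apply τ (W0H.toAffine.negY _ _), ← WeierstrassCurve.Affine.map_negY]
      erw [map_W0H_affine]
      exact (key τ).2
    rw [hvw, pM_zero, pM_of_ne hv, pM_of_ne hw]
    refine (WeierstrassCurve.Affine.Point.add_of_Y_eq (congrArg holHom hx.1) ?_).symm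
    rw [yM, hx.2]
    exact (WeierstrassCurve.Affine.map_negY _ _ _).symm
  -- the three points are finite; the slope is holomorphic
  have hnot : ∀ τ, ¬(℘[tauPair τ] (zV n v τ) = ℘[tauPair τ] (zV n w τ) ∧
      ℘'[tauPair τ] (zV n v τ) / 2 = (curve (tauPair τ)).toAffine.negY
        (℘[tauPair τ] (zV n w τ)) (℘'[tauPair τ] (zV n w τ) / 2)) := fun τ h => hvw (by
    refine torsHom_injective τ ?_
    rw [map_add, map_zero, torsHom_of_ne hv, torsHom_of_ne hw]
    exact WeierstrassCurve.Affine.Point.add_of_Y_eq h.1 h.2)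
  have hnotM : ¬(xM n v = xM n w ∧ yM n v = W0M.toAffine.negY (xM n w) (yM n w)) := by
    rintro ⟨h1, h2⟩
    apply hnot UpperHalfPlane.I
    have h1' := holHom_injective h1
    have h2' := holHom_injective (h2.trans (WeierstrassCurve.Affine.map_negY _ _ _))
    refine ⟨congrArg (fun f : holSubring => f.1 UpperHalfPlane.I) h1', ?_⟩
    have := congrArg (evH UpperHalfPlane.I) h2'
    rw [← WeierstrassCurve.Affine.map_negY] at this
    erw [map_W0H_affine] at this
    exact this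
  obtain ⟨ℓ, hℓC, hℓM⟩ : ∃ ℓ : holSubring,
      (∀ τ, (curve (tauPair τ)).toAffine.slope (℘[tauPair τ] (zV n v τ)) (℘[tauPair τ] (zV n w τ))
        (℘'[tauPair τ] (zV n v τ) / 2) (℘'[tauPair τ] (zV n w τ) / 2) = ℓ.1 τ) ∧
      W0M.toAffine.slope (xM n v) (xM n w) (yM n v) (yM n w) = holHom ℓ := by
    by_cases hvw' : v = w
    · subst hvw'
      have hden : ∀ τ, ((yH n v + yH n v : holSubring)).1 τ ≠ 0 := fun τ => by
        have := derivWeierstrassP_zV_ne_zero hvw τ
        change ℘'[tauPair τ] (zV n v τ) / 2 + ℘'[tauPair τ] (zV n v τ) / 2 ≠ 0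
        rwa [add_halves]
      refine ⟨hDiv (constH 3 * xH n v ^ 2 + W0H.a₄) (yH n v + yH n v) hden, fun τ => ?_, ?_⟩
      · rw [WeierstrassCurve.Affine.slope_of_Y_ne rfl fun h => hnot τ ⟨rfl, h⟩]
        simp [hDiv, xH, yH, W0H, g₂H, constH, curve, WeierstrassCurve.Affine.negY]
        ring
      · rw [WeierstrassCurve.Affine.slope_of_Y_ne rfl fun h => hnotM ⟨rfl, h⟩, holHom_hDiv]
        simp only [xM, yM, W0M, WeierstrassCurve.toAffine, WeierstrassCurve.Affine.negY,
          WeierstrassCurve.map_a₁, WeierstrassCurve.map_a₂, WeierstrassCurve.map_a₃,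
          WeierstrassCurve.map_a₄, map_add, map_mul, map_pow]
        rw [show holHom (constH 3) = 3 from (map_ofNat (holHom.comp constH) 3)]
        simp [W0H]
    · have hX : ∀ τ, ℘[tauPair τ] (zV n v τ) ≠ ℘[tauPair τ] (zV n w τ) := fun τ h => by
        rcases (weierstrassP_eq_iff (Δ_curve_tauPair τ) (fun hh => hv (zV_mem_iff.1 hh))
          (fun hh => hw (zV_mem_iff.1 hh))).1 h with h' | h'
        · exact hvw' (torsHom_injective τ (by rwa [torsHom_apply, torsHom_apply, pt_eq_iff]))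
        · refine hvw ((zV_mem_iff (τ := τ)).1 ?_)
          simpa using sub_mem h' (zV_add_mem v w τ)
      have hden : ∀ τ, (xH n v - xH n w : holSubring).1 τ ≠ 0 := fun τ => sub_ne_zero.2 (hX τ)
      refine ⟨hDiv (yH n v - yH n w) (xH n v - xH n w) hden, fun τ => ?_, ?_⟩
      · rw [WeierstrassCurve.Affine.slope_of_X_ne (hX τ)]
        rfl
      · have hXM : xM n v ≠ xM n w := fun h =>
          hX UpperHalfPlane.I (congrArg (fun f : holSubring => f.1 UpperHalfPlane.I)
            (holHom_injective h))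
        rw [WeierstrassCurve.Affine.slope_of_X_ne hXM, holHom_hDiv, map_sub, map_sub]
        rfl
  rw [pM_of_ne hvw, pM_of_ne hv, pM_of_ne hw, WeierstrassCurve.Affine.Point.add_some hnotM,
    WeierstrassCurve.Affine.Point.some.injEq, hℓM]
  have key : ∀ τ,
      ℘[tauPair τ] (zV n (v + w) τ) = (curve (tauPair τ)).toAffine.addX
        (℘[tauPair τ] (zV n v τ)) (℘[tauPair τ] (zV n w τ)) (ℓ.1 τ) ∧
      ℘'[tauPair τ] (zV n (v + w) τ) / 2 = (curve (tauPair τ)).toAffine.addY
        (℘[tauPair τ] (zV n v τ)) (℘[tauPair τ] (zV n w τ)) (℘'[tauPair τ] (zV n v τ) / 2)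
        (ℓ.1 τ) := fun τ => by
    have h := map_add (torsHom n τ) v w
    rw [torsHom_of_ne hvw, torsHom_of_ne hv, torsHom_of_ne hw,
      WeierstrassCurve.Affine.Point.add_some (hnot τ), WeierstrassCurve.Affine.Point.some.injEq,
      hℓC τ] at h
    exact h
  refine ⟨?_, ?_⟩
  · refine (congrArg holHom (holSubring_ext fun τ => ?_)).trans
      (WeierstrassCurve.Affine.map_addX (f := holHom) (W' := W0H.toAffine) _ _ _).symm
    rw [← evH_apply τ (W0H.toAffine.addX _ _ _), ← WeierstrassCurve.Affine.map_addX]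
    erw [map_W0H_affine]
    exact (key τ).1
  · refine (congrArg holHom (holSubring_ext fun τ => ?_)).trans
      (WeierstrassCurve.Affine.map_addY (f := holHom) (W' := W0H.toAffine) _ _ _ _).symm
    rw [← evH_apply τ (W0H.toAffine.addY _ _ _ _), ← WeierstrassCurve.Affine.map_addY]
    erw [map_W0H_affine]
    exact (key τ).2

/-- The level structure over `MeroH`. -/
def torsM (n : ℕ) [NeZero n] : ZMod n × ZMod n →+ W0M.toAffine.Point :=
  AddMonoidHom.mk' (pM n) (pM_add n)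

theorem torsM_apply {n : ℕ} [NeZero n] (v : ZMod n × ZMod n) : torsM n v = pM n v := rfl

theorem torsM_injective {n : ℕ} [NeZero n] : Function.Injective (torsM n) := by
  rw [injective_iff_map_eq_zero]
  intro v hv
  by_contra h
  rw [torsM_apply, pM_of_ne h] at hv
  exact WeierstrassCurve.Affine.Point.some_ne_zero _ hv

/-! ### The action of `SL(2, ℤ)` -/

/-- `c τ + d`. -/
def denomH (γ : SL(2, ℤ)) : holSubring :=
  ⟨fun τ => (γ 1 0 : ℂ) * τ + γ 1 1,
    (mdifferentiable_const.mul UpperHalfPlane.mdifferentiable_coe).add mdifferentiable_const⟩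

theorem denomH_ne_zero (γ : SL(2, ℤ)) (τ : ℍ) : (denomH γ).1 τ ≠ 0 := by
  have := UpperHalfPlane.denom_ne_zero (γ : GL (Fin 2) ℝ) τ
  simpa [UpperHalfPlane.denom, denomH] using this

/-- `c τ + d` in `MeroH`. -/
def denomM (γ : SL(2, ℤ)) : MeroH := holHom (denomH γ)

theorem denomM_ne_zero (γ : SL(2, ℤ)) : denomM γ ≠ 0 :=
  holHom_ne_zero UpperHalfPlane.I (denomH_ne_zero γ _)

theorem slComp_holHom {γ : SL(2, ℤ)} {f g : holSubring} (h : ∀ τ : ℍ, f.1 (γ • τ) = g.1 τ) :
    slComp γ (holHom f) = holHom g := by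
  refine (MFGenus.slComp_ofHol_slash γ f.2).trans (ofHol_congr _ g.2 (funext fun τ => ?_))
  rw [ModularForm.SL_slash_apply, neg_zero, zpow_zero, mul_one, h]

theorem slComp_xM {n : ℕ} [NeZero n] (γ : SL(2, ℤ)) (v : ZMod n × ZMod n) :
    slComp γ (xM n v) = denomM γ ^ 2 * xM n (rowAct γ v) := by
  rw [xM, xM, denomM, ← map_pow, ← map_mul]
  refine slComp_holHom fun τ => ?_
  have hJ := denomH_ne_zero γ τ
  simp only [denomH] at hJ
  have h := weierstrassP_dilation (inv_ne_zero hJ) (mem_tauPair_smul γ τ)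
    (((γ 1 0 : ℂ) * τ + γ 1 1) * zV n v (γ • τ))
  rw [inv_mul_cancel_left₀ hJ] at h
  have hper := (tauPair τ).weierstrassP_add_coe (zV n (rowAct γ v) τ)
    ⟨_, zV_smul_sub_mem γ τ v⟩
  simp only [add_sub_cancel] at hper
  simp only [xH, denomH, Subring.coe_mul, SubmonoidClass.coe_pow, Pi.mul_apply, Pi.pow_apply]
  rw [h, hper, inv_pow, inv_inv]

theorem slComp_yM {n : ℕ} [NeZero n] (γ : SL(2, ℤ)) (v : ZMod n × ZMod n) :
    slComp γ (yM n v) = denomM γ ^ 3 * yM n (rowAct γ v) := by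
  rw [yM, yM, denomM, ← map_pow, ← map_mul]
  refine slComp_holHom fun τ => ?_
  have hJ := denomH_ne_zero γ τ
  simp only [denomH] at hJ
  have h := derivWeierstrassP_dilation (inv_ne_zero hJ) (mem_tauPair_smul γ τ)
    (((γ 1 0 : ℂ) * τ + γ 1 1) * zV n v (γ • τ))
  rw [inv_mul_cancel_left₀ hJ] at h
  have hper := (tauPair τ).derivWeierstrassP_add_coe (zV n (rowAct γ v) τ)
    ⟨_, zV_smul_sub_mem γ τ v⟩
  simp only [add_sub_cancel] at hper
  simp only [yH, denomH, Subring.coe_mul, SubmonoidClass.coe_pow, Pi.mul_apply, Pi.pow_apply]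
  rw [h, hper, inv_pow, inv_inv]
  ring

theorem map_slComp_W0M (γ : SL(2, ℤ)) :
    (W0M.map (slComp γ)).a₁ = 0 ∧ (W0M.map (slComp γ)).a₂ = 0 ∧ (W0M.map (slComp γ)).a₃ = 0 ∧
    (W0M.map (slComp γ)).a₄ = denomM γ ^ 4 * W0M.a₄ ∧
    (W0M.map (slComp γ)).a₆ = denomM γ ^ 6 * W0M.a₆ := by
  refine ⟨by simp [W0M, W0H], by simp [W0M, W0H], by simp [W0M, W0H], ?_, ?_⟩ <;>
    simp only [W0M, W0H, WeierstrassCurve.map_a₄, WeierstrassCurve.map_a₆, denomM] <;>
    rw [← map_pow, ← map_mul] <;> refine slComp_holHom fun τ => ?_ <;>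
    have hJ := denomH_ne_zero γ τ <;> simp only [denomH] at hJ
  · have h := G_dilation (inv_ne_zero hJ) (mem_tauPair_smul γ τ) 4
    change -(60 * (tauPair (γ • τ)).G 4) * (1 / 4) =
      ((γ 1 0 : ℂ) * τ + γ 1 1) ^ 4 * (-(60 * (tauPair τ).G 4) * (1 / 4))
    rw [h, inv_pow, inv_inv]
    ring
  · have h := G_dilation (inv_ne_zero hJ) (mem_tauPair_smul γ τ) 6
    change -(140 * (tauPair (γ • τ)).G 6) * (1 / 4) =
      ((γ 1 0 : ℂ) * τ + γ 1 1) ^ 6 * (-(140 * (tauPair τ).G 6) * (1 / 4))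
    rw [h, inv_pow, inv_inv]
    ring

/-! ### The quotient formula -/

/-- The quotient of the universal cubic by a cyclic or diagonal subgroup has invariant
`j(b τ / a)`. -/
theorem jQuot_W0M {n a b : ℕ} [NeZero n] (ha : a ∣ n) (hb : b ∣ n)
    (hdet : 0 < (!![(b : ℤ), 0; 0, (a : ℤ)]).det) :
    jQuot W0M ((subTors n a b).erase 0) (xM n) = intComp !![(b : ℤ), 0; 0, (a : ℤ)] hdet jMero := by
  set S := (subTors n a b).erase 0
  let A : holSubring := sumG₂ g₂H S (xH n)
  let B : holSubring := sumG₃ g₂H g₃H S (xH n)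
  have hmap₂ : ∀ {R : Type} [CommRing R] (φ : holSubring →+* R),
      φ A = sumG₂ (φ g₂H) S fun v => φ (xH n v) := fun φ => by
    simp [A, sumG₂, map_sum, map_ofNat]
  have hmap₃ : ∀ {R : Type} [CommRing R] (φ : holSubring →+* R),
      φ B = sumG₃ (φ g₂H) (φ g₃H) S fun v => φ (xH n v) := fun φ => by
    simp [B, sumG₃, map_sum, map_ofNat]
  have hpt : ∀ (τ τ' : ℍ), (τ' : ℂ) = b * τ / a →
      (A ^ 3 - constH 27 * B ^ 2).1 τ ≠ 0 ∧
      jFun τ' * (A ^ 3 - constH 27 * B ^ 2).1 τ = (constH 1728 * A ^ 3).1 τ := by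
    intro τ τ' hτ'
    have h := jFun_quotient ha hb hτ'
    have e2 := hmap₂ (evH τ)
    have e3 := hmap₃ (evH τ)
    rw [← evH_apply τ, ← evH_apply τ]
    simp only [map_sub, map_mul, map_pow, e2, e3]
    exact h
  have hτ : ∀ τ : ℍ, ∃ τ' : ℍ, (τ' : ℂ) = b * τ / a ∧
      (τ' : ℂ) = moeb (intGL !![(b : ℤ), 0; 0, (a : ℤ)] hdet) τ := fun τ => by
    refine ⟨(intGL !![(b : ℤ), 0; 0, (a : ℤ)] hdet) • τ, ?_, ?_⟩
    · rw [← moeb_coe, moeb_intGL hdet (coe_mem_uhp τ)]
      simp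
    · rw [moeb_coe]
  have hden : ∀ τ, (A ^ 3 - constH 27 * B ^ 2).1 τ ≠ 0 := fun τ => by
    obtain ⟨τ', h1, -⟩ := hτ τ
    exact (hpt τ τ' h1).1
  have hW : W0M = ⟨0, 0, 0, -holHom g₂H / 4, -holHom g₃H / 4⟩ := by
    have h4 : holHom (constH 4⁻¹) = 4⁻¹ := by
      rw [← RingHom.comp_apply, map_inv₀, map_ofNat]
    ext <;> simp [W0M, W0H, h4, div_eq_mul_inv]
  have : CharZero MeroH := charZero_of_injective_ringHom const_injective
  rw [hW, jQuot_cubic, jFromInv]
  have e2 := hmap₂ holHom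
  have e3 := hmap₃ holHom
  change _ = intComp _ hdet (ofHol jFun mdifferentiable_jFun)
  have hrhs : intComp _ hdet (ofHol jFun mdifferentiable_jFun) =
      holHom (hDiv (constH 1728 * A ^ 3) _ hden) := by
    rw [ofHol, intComp_mk]
    change _ = ofHol (hDiv (constH 1728 * A ^ 3) _ hden).1 (hDiv (constH 1728 * A ^ 3) _ hden).2
    refine mk_congr _ _ fun z hz => ?_
    obtain ⟨τ', h1, h2⟩ := hτ ⟨z, hz⟩
    simp only [Function.comp_apply, hDiv, Pi.div_apply, ofComplex_apply_of_im_pos hz]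
    rw [eq_div_iff (hden _), ← (hpt _ τ' h1).2, ← h2, ofComplex_apply]
  rw [hrhs, holHom_hDiv]
  simp only [map_sub, map_mul, map_pow, e2, e3]
  rw [show holHom (constH 1728) = 1728 from map_ofNat (holHom.comp constH) 1728,
    show holHom (constH 27) = 27 from map_ofNat (holHom.comp constH) 27]
  rfl

end Fermat.Agent.Carayol
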