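import Fermat.Agent.LevelOne.Lattice
import Fermat.Agent.LevelOne.JFunction
import Mathlib.AlgebraicGeometry.EllipticCurve.Affine.Point

/-!
# The Weierstrass function as a uniformisation

The Weierstrass function as a uniformisation: addition theorem, the group homomorphism to the
points of the cubic, second and fourth derivatives, and Eisenstein sums of overlattices.

Main result: `jFun_eq_g`.
-/

set_option autoImplicit false

noncomputable section

open Filter Topology
open scoped PeriodPair Classical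

namespace Fermat.Agent.Carayol.Weier

variable (L : PeriodPair)

/-! ### Isolated zeros -/

theorem eventually_ne_zero {s : Set ℂ} (hs : s.Countable) {f : ℂ → ℂ}
    (hf : AnalyticOnNhd ℂ f sᶜ) {z₁ : ℂ} (h₁ : z₁ ∉ s) (hne : f z₁ ≠ 0) {z₀ : ℂ} (h₀ : z₀ ∉ s) :
    ∀ᶠ z in 𝓝[≠] z₀, f z ≠ 0 := by
  refine (hf z₀ h₀).eventually_eq_zero_or_eventually_ne_zero.resolve_left fun h => hne ?_
  exact hf.eqOn_zero_of_preconnected_of_eventuallyEq_zero
    (hs.isPathConnected_compl_of_one_lt_rank LevelOne.rankOne_complex).isConnected.isPreconnected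
    h₀ h h₁

theorem weierstrassP_eq_add (z : ℂ) : ℘[L] z = L.weierstrassPExcept 0 z + 1 / z ^ 2 := by
  have h := L.weierstrassPExcept_add 0 z
  simpa using h.symm

theorem derivWeierstrassP_eq_sub (z : ℂ) : ℘'[L] z = L.derivWeierstrassPExcept 0 z - 2 / z ^ 3 := by
  have h := L.derivWeierstrassPExcept_sub 0 z
  simpa using h.symm

theorem eventually_notMem (z₀ : ℂ) : ∀ᶠ z in 𝓝[≠] z₀, z ∉ L.lattice := by
  filter_upwards [self_mem_nhdsWithin,
    mem_nhdsWithin_of_mem_nhds (L.compl_lattice_sdiff_singleton_mem_nhds z₀)] with z hz hz'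
  have hne : z ≠ z₀ := hz
  simp_all

theorem eventually_weierstrassP_ne {g : ℂ → ℂ} (hg : AnalyticAt ℂ g 0) :
    ∀ᶠ z in 𝓝[≠] (0 : ℂ), ℘[L] z ≠ g z := by
  have hE := L.analyticAt_weierstrassPExcept 0
  have hc : ContinuousAt (fun z => z ^ 2 * L.weierstrassPExcept 0 z + 1 - z ^ 2 * g z) 0 := by
    have := hE.continuousAt; have := hg.continuousAt; fun_prop
  filter_upwards [mem_nhdsWithin_of_mem_nhds (hc.eventually_ne (y := 0) (by simp)),
    self_mem_nhdsWithin] with z hz hz0 h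
  have hz' : z ≠ 0 := hz0
  apply hz
  rw [weierstrassP_eq_add] at h
  rw [← h]
  field_simp
  ring

theorem eventually_derivWeierstrassP_ne_zero₀ : ∀ᶠ z in 𝓝[≠] (0 : ℂ), ℘'[L] z ≠ 0 := by
  have hE := L.analyticAt_derivWeierstrassPExcept 0
  have hc : ContinuousAt (fun z => z ^ 3 * L.derivWeierstrassPExcept 0 z - 2) 0 := by
    have := hE.continuousAt; fun_prop
  filter_upwards [mem_nhdsWithin_of_mem_nhds (hc.eventually_ne (y := 0) (by simp)),
    self_mem_nhdsWithin] with z hz hz0 h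
  have hz' : z ≠ 0 := hz0
  apply hz
  rw [derivWeierstrassP_eq_sub] at h
  field_simp at h
  linear_combination h

theorem eventually_derivWeierstrassP_ne_zero {z₀ : ℂ} (h₀ : z₀ ∉ L.lattice) :
    ∀ᶠ z in 𝓝[≠] z₀, ℘'[L] z ≠ 0 := by
  obtain ⟨z₁, h₁, hne⟩ :=
    ((eventually_notMem L 0).and (eventually_derivWeierstrassP_ne_zero₀ L)).exists
  exact eventually_ne_zero (LevelOne.lattice_countable L)
    L.analyticOnNhd_derivWeierstrassP h₁ hne h₀

theorem eventually_weierstrassP_ne_const {z₀ : ℂ} (h₀ : z₀ ∉ L.lattice) (k : ℂ) :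
    ∀ᶠ z in 𝓝[≠] z₀, ℘[L] z ≠ k := by
  obtain ⟨z₁, h₁, hne⟩ :=
    ((eventually_notMem L 0).and (eventually_weierstrassP_ne L
      (g := fun _ => k) analyticAt_const)).exists
  exact (eventually_ne_zero (LevelOne.lattice_countable L) (f := fun z => ℘[L] z - k)
    (fun z hz => (L.analyticOnNhd_weierstrassP z hz).sub analyticAt_const) h₁
    (sub_ne_zero.2 hne) h₀).mono fun z hz h => hz (sub_eq_zero.2 h)

/-! ### Derivatives -/

theorem hasDerivAt_weierstrassP {z : ℂ} (hz : z ∉ L.lattice) :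
    HasDerivAt ℘[L] (℘'[L] z) z := by
  rw [← L.deriv_weierstrassP]
  exact (L.analyticOnNhd_weierstrassP z hz).differentiableAt.hasDerivAt

theorem eventually_compl {z : ℂ} (hz : z ∉ L.lattice) : ∀ᶠ w in 𝓝 z, w ∉ L.lattice :=
  L.isClosed_lattice.isOpen_compl.mem_nhds hz

theorem deriv_derivWeierstrassP {z : ℂ} (hz : z ∉ L.lattice) :
    deriv ℘'[L] z = 6 * ℘[L] z ^ 2 - L.g₂ / 2 := by
  have hf : AnalyticOnNhd ℂ (deriv ℘'[L]) (L.lattice : Set ℂ)ᶜ :=
    L.analyticOnNhd_derivWeierstrassP.deriv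
  have key : ∀ w ∉ L.lattice, ℘'[L] w ≠ 0 →
      deriv ℘'[L] w = 6 * ℘[L] w ^ 2 - L.g₂ / 2 := by
    intro w hw hne
    have h1 := ((L.analyticOnNhd_derivWeierstrassP w hw).differentiableAt.hasDerivAt).fun_pow 2
    have hP := hasDerivAt_weierstrassP L hw
    have h2 := (((hP.fun_pow 3).const_mul (4 : ℂ)).sub (hP.const_mul L.g₂)).sub_const L.g₃
    have he : (fun z => ℘'[L] z ^ 2) =ᶠ[𝓝 w]
        fun z => 4 * ℘[L] z ^ 3 - L.g₂ * ℘[L] z - L.g₃ :=
      (eventually_compl L hw).mono fun z hz => L.derivWeierstrassP_sq z hz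
    have h := h1.unique (h2.congr_of_eventuallyEq he)
    push_cast at h
    refine mul_left_cancel₀ (mul_ne_zero two_ne_zero hne) ?_
    linear_combination h
  have hP := (L.analyticOnNhd_weierstrassP z hz).continuousAt
  refine tendsto_nhds_unique ((hf z hz).continuousAt.tendsto.mono_left nhdsWithin_le_nhds)
    (Tendsto.congr' ?_ ((show ContinuousAt (fun w => 6 * ℘[L] w ^ 2 - L.g₂ / 2) z by
      fun_prop).tendsto.mono_left nhdsWithin_le_nhds) : Tendsto _ (𝓝[≠] z) _)
  filter_upwards [eventually_derivWeierstrassP_ne_zero L hz,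
    mem_nhdsWithin_of_mem_nhds (eventually_compl L hz)] with w h1 h2
  exact (key w h2 h1).symm

theorem hasDerivAt_derivWeierstrassP {z : ℂ} (hz : z ∉ L.lattice) :
    HasDerivAt ℘'[L] (6 * ℘[L] z ^ 2 - L.g₂ / 2) z := by
  rw [← deriv_derivWeierstrassP L hz]
  exact (L.analyticOnNhd_derivWeierstrassP z hz).differentiableAt.hasDerivAt

theorem sumInvPow_four {c : ℂ} (hc : c ∉ L.lattice) :
    L.sumInvPow c 4 = ℘[L] c ^ 2 - L.g₂ / 12 := by
  have h := L.iteratedDeriv_weierstrassPExcept_self c (n := 2)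
  rw [L.weierstrassPExcept_of_notMem c hc, iteratedDeriv_succ, iteratedDeriv_one,
    L.deriv_weierstrassP, deriv_derivWeierstrassP L hc] at h
  simp [Nat.factorial] at h
  linear_combination -h / 6

theorem sumInvPow_six {c : ℂ} (hc : c ∉ L.lattice) :
    L.sumInvPow c 6 = ℘[L] c ^ 3 - 3 * L.g₂ / 20 * ℘[L] c - L.g₃ / 10 := by
  have h := L.iteratedDeriv_weierstrassPExcept_self c (n := 4)
  rw [L.weierstrassPExcept_of_notMem c hc, iteratedDeriv_eq_iterate] at h
  simp only [Function.iterate_succ, Function.iterate_zero, Function.comp_apply, id_eq,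
    L.deriv_weierstrassP] at h
  have h2 : deriv ℘'[L] =ᶠ[𝓝 c] fun w => 6 * ℘[L] w ^ 2 - L.g₂ / 2 :=
    (eventually_compl L hc).mono fun w hw => deriv_derivWeierstrassP L hw
  have h3 : deriv (deriv ℘'[L]) =ᶠ[𝓝 c] fun w => 12 * (℘[L] w * ℘'[L] w) := by
    refine h2.deriv.trans ((eventually_compl L hc).mono fun w hw => ?_)
    have := (((hasDerivAt_weierstrassP L hw).fun_pow 2).const_mul (6 : ℂ)).sub_const (L.g₂ / 2)
    rw [this.deriv]
    push_cast
    ring
  have h4 := (((hasDerivAt_weierstrassP L hc).fun_mul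
    (hasDerivAt_derivWeierstrassP L hc)).const_mul (12 : ℂ)).deriv
  rw [h3.deriv_eq, h4, ← sq, L.derivWeierstrassP_sq c hc] at h
  simp [Nat.factorial] at h
  linear_combination -h / 120

theorem derivWeierstrassP_eq_sumInvPow (z : ℂ) : ℘'[L] z = 2 * L.sumInvPow z 3 := by
  rw [PeriodPair.derivWeierstrassP, PeriodPair.sumInvPow, ← tsum_mul_left, ← tsum_neg]
  refine tsum_congr fun l => ?_
  rw [← neg_sub z (l : ℂ), Odd.neg_pow (by decide), inv_neg, div_eq_mul_inv, mul_neg]

theorem sumInvPow_five {c : ℂ} (hc : c ∉ L.lattice) :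
    L.sumInvPow c 5 = ℘[L] c * ℘'[L] c / 2 := by
  have h := L.iteratedDeriv_weierstrassPExcept_self c (n := 3)
  rw [L.weierstrassPExcept_of_notMem c hc, iteratedDeriv_eq_iterate] at h
  simp only [Function.iterate_succ, Function.iterate_zero, Function.comp_apply, id_eq,
    L.deriv_weierstrassP] at h
  have h2 : deriv ℘'[L] =ᶠ[𝓝 c] fun w => 6 * ℘[L] w ^ 2 - L.g₂ / 2 :=
    (eventually_compl L hc).mono fun w hw => deriv_derivWeierstrassP L hw
  have := (((hasDerivAt_weierstrassP L hc).fun_pow 2).const_mul (6 : ℂ)).sub_const (L.g₂ / 2)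
  rw [h2.deriv_eq, this.deriv] at h
  simp [Nat.factorial] at h
  linear_combination -h / 24

/-! ### The collinearity relation -/

/-- The determinant of three collinear points. -/
def collinearDet (w z : ℂ) : ℂ :=
  (℘[L] w * -℘'[L] (z + w) - ℘'[L] w * ℘[L] (z + w))
    - ℘[L] z * (-℘'[L] (z + w) - ℘'[L] w) + ℘'[L] z * (℘[L] (z + w) - ℘[L] w)

theorem collinearDet_symm (w z : ℂ) : collinearDet L w (-w - z) = -collinearDet L w z := by
  rw [collinearDet, collinearDet, show -w - z + w = -z by ring,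
    show -w - z = -(z + w) by ring]
  simp only [L.weierstrassP_neg, L.derivWeierstrassP_neg]
  ring

theorem exists_analyticAt_collinearDet {w : ℂ} (hw : w ∉ L.lattice) :
    ∃ H : ℂ → ℂ, AnalyticAt ℂ H 0 ∧ ∀ᶠ z in 𝓝[≠] (0 : ℂ), collinearDet L w z = H z := by
  have hPw : AnalyticAt ℂ (fun z => ℘[L] (z + w)) 0 :=
    (L.analyticOnNhd_weierstrassP (0 + w) (by simpa using hw)).fun_comp (f := fun z => z + w)
      (analyticAt_id.add analyticAt_const)
  have hQw : AnalyticAt ℂ (fun z => ℘'[L] (z + w)) 0 :=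
    (L.analyticOnNhd_derivWeierstrassP (0 + w) (by simpa using hw)).fun_comp (f := fun z => z + w)
      (analyticAt_id.add analyticAt_const)
  set S : ℂ → ℂ := fun z =>
    z * (℘'[L] (z + w) + ℘'[L] w) - 2 * (℘[L] (z + w) - ℘[L] w) with hSdef
  have hS : AnalyticAt ℂ S 0 := by fun_prop
  have hev : ∀ᶠ z in 𝓝 (0 : ℂ), z + w ∉ L.lattice :=
    (continuous_add_const w).continuousAt.eventually (eventually_compl L (by simpa using hw))
  have hdP : ∀ z, z + w ∉ L.lattice →
      HasDerivAt (fun z => ℘[L] (z + w)) (℘'[L] (z + w)) z :=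
    fun z hz => (hasDerivAt_weierstrassP L hz).comp_add_const z w
  have hdQ : ∀ z, z + w ∉ L.lattice →
      HasDerivAt (fun z => ℘'[L] (z + w)) (6 * ℘[L] (z + w) ^ 2 - L.g₂ / 2) z :=
    fun z hz => (hasDerivAt_derivWeierstrassP L hz).comp_add_const z w
  have h1 : deriv S =ᶠ[𝓝 0] fun z =>
      z * (6 * ℘[L] (z + w) ^ 2 - L.g₂ / 2) - ℘'[L] (z + w) + ℘'[L] w := by
    filter_upwards [hev] with z hz
    have := ((hasDerivAt_id z).fun_mul ((hdQ z hz).add_const (℘'[L] w))).fun_sub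
      (((hdP z hz).sub_const (℘[L] w)).const_mul (2 : ℂ))
    refine this.deriv.trans ?_
    simp only [id_eq]
    ring
  have h2 : deriv (deriv S) 0 = 0 := by
    rw [h1.deriv_eq]
    have hz : (0 : ℂ) + w ∉ L.lattice := by simpa using hw
    have := (((hasDerivAt_id (0 : ℂ)).fun_mul
      ((((hdP 0 hz).fun_pow 2).const_mul (6 : ℂ)).sub_const (L.g₂ / 2))).fun_sub
      (hdQ 0 hz)).add_const (℘'[L] w)
    refine this.deriv.trans ?_
    simp
  have h3 : (3 : ℕ) ≤ analyticOrderAt S 0 := by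
    rw [natCast_le_analyticOrderAt_iff_iteratedDeriv_eq_zero hS]
    intro i hi
    interval_cases i
    · simp [hSdef]
    · rw [iteratedDeriv_one, h1.self_of_nhds]; simp
    · rw [iteratedDeriv_succ, iteratedDeriv_one, h2]
  obtain ⟨H, hH, hSH⟩ := (natCast_le_analyticOrderAt hS).1 h3
  refine ⟨fun z => (℘[L] w * -℘'[L] (z + w) - ℘'[L] w * ℘[L] (z + w))
    + L.weierstrassPExcept 0 z * (℘'[L] (z + w) + ℘'[L] w)
    + L.derivWeierstrassPExcept 0 z * (℘[L] (z + w) - ℘[L] w) + H z, ?_, ?_⟩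
  · have := L.analyticAt_weierstrassPExcept 0
    have := L.analyticAt_derivWeierstrassPExcept 0
    fun_prop
  · filter_upwards [mem_nhdsWithin_of_mem_nhds hSH, self_mem_nhdsWithin] with z hz hz0
    have hne : z ≠ 0 := hz0
    simp only [hSdef, sub_zero, smul_eq_mul] at hz
    rw [collinearDet, weierstrassP_eq_add L z, derivWeierstrassP_eq_sub L z]
    field_simp
    linear_combination hz

theorem collinearDet_eq_zero {w z : ℂ} (hw : w ∉ L.lattice) (hz : z ∉ L.lattice)
    (hzw : z + w ∉ L.lattice) : collinearDet L w z = 0 := by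
  obtain ⟨H, hH, hDH⟩ := exists_analyticAt_collinearDet L hw
  set D : ℂ → ℂ := fun z =>
    if z ∈ L.lattice then H 0 else if z + w ∈ L.lattice then -H 0 else collinearDet L w z with hD
  have hper : ∀ l ∈ L.lattice, ∀ z, D (z + l) = D z := by
    intro l hl z
    simp only [hD, Submodule.add_mem_iff_left _ hl, add_right_comm z l w, collinearDet]
    have h1 : ∀ x : ℂ, ℘[L] (x + l) = ℘[L] x := fun x => L.weierstrassP_add_coe x ⟨l, hl⟩
    have h2 : ∀ x : ℂ, ℘'[L] (x + l) = ℘'[L] x :=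
      fun x => L.derivWeierstrassP_add_coe x ⟨l, hl⟩
    simp only [h1, h2]
  have hsym : ∀ z, D (-w - z) = -D z := by
    intro z
    have e1 : -w - z ∈ L.lattice ↔ z + w ∈ L.lattice := by
      rw [show -w - z = -(z + w) by ring, neg_mem_iff]
    have e2 : -w - z + w ∈ L.lattice ↔ z ∈ L.lattice := by
      rw [show -w - z + w = -z by ring, neg_mem_iff]
    simp only [hD, e1, e2, collinearDet_symm]
    by_cases hz : z ∈ L.lattice
    · have : z + w ∉ L.lattice := fun h => hw ((Submodule.add_mem_iff_right _ hz).1 h)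
      simp [hz, this]
    · by_cases hz' : z + w ∈ L.lattice <;> simp [hz, hz']
  have h0 : AnalyticAt ℂ D 0 := by
    refine hH.congr ?_
    have hne : ∀ᶠ z in 𝓝 (0 : ℂ), z + w ∉ L.lattice :=
      (continuous_add_const w).continuousAt.eventually (eventually_compl L (by simpa using hw))
    rw [eventually_nhdsWithin_iff] at hDH
    filter_upwards [hne, hDH, L.compl_lattice_sdiff_singleton_mem_nhds 0] with z h1 h2 h3
    rcases eq_or_ne z 0 with rfl | hz0
    · simp [hD]
    · have : z ∉ L.lattice := fun h => h3 ⟨h, hz0⟩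
      simp [hD, this, h1, h2 hz0]
  have hl : ∀ l ∈ L.lattice, AnalyticAt ℂ D l := by
    intro l hl
    have : D = D ∘ fun z => z + -l := funext fun z => (hper _ (neg_mem hl) z).symm
    rw [this]
    exact h0.comp_of_eq (analyticAt_id.add analyticAt_const) (by simp)
  have hall : ∀ z, AnalyticAt ℂ D z := by
    intro z
    by_cases hz : z ∈ L.lattice
    · exact hl z hz
    by_cases hz' : z + w ∈ L.lattice
    · have : D = fun z => -D (-w - z) := funext fun z => by rw [hsym, neg_neg]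
      rw [this]
      refine ((hl (-w - z) ?_).fun_comp (f := fun z => -w - z) ?_).neg
      · rwa [show -w - z = -(z + w) by ring, neg_mem_iff]
      · exact analyticAt_const.sub analyticAt_id
    · have ha : AnalyticAt ℂ (collinearDet L w) z := by
        have h1 := L.analyticOnNhd_weierstrassP z hz
        have h2 := L.analyticOnNhd_derivWeierstrassP z hz
        have h3 : AnalyticAt ℂ (fun u => ℘[L] (u + w)) z :=
          (L.analyticOnNhd_weierstrassP _ hz').fun_comp (f := fun u => u + w)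
            (analyticAt_id.add analyticAt_const)
        have h4 : AnalyticAt ℂ (fun u => ℘'[L] (u + w)) z :=
          (L.analyticOnNhd_derivWeierstrassP _ hz').fun_comp (f := fun u => u + w)
            (analyticAt_id.add analyticAt_const)
        unfold collinearDet
        fun_prop
      refine ha.congr ?_
      filter_upwards [eventually_compl L hz,
        (continuous_add_const w).continuousAt.eventually (eventually_compl L hz')] with u h1 h2
      simp [hD, h1, h2]
  have hdiff : Differentiable ℂ D := fun z => (hall z).differentiableAt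
  have hconst : D (-w - z) = D z :=
    hdiff.apply_eq_apply_of_bounded (IsZLattice.isCompact_range_of_periodic L.lattice _
      hdiff.continuous fun u l hl => hper l hl u).isBounded _ _
  rw [hsym, neg_eq_iff_add_eq_zero, ← two_mul, mul_eq_zero] at hconst
  simpa [hD, hz, hzw] using hconst.resolve_left two_ne_zero

/-! ### The points -/

/-- The cubic `y² = x³ - (g₂/4) x - g₃/4`. -/
def curve : WeierstrassCurve ℂ := ⟨0, 0, 0, -L.g₂ / 4, -L.g₃ / 4⟩

theorem equation_wp {z : ℂ} (hz : z ∉ L.lattice) :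
    (curve L).toAffine.Equation (℘[L] z) (℘'[L] z / 2) := by
  rw [WeierstrassCurve.Affine.equation_iff]
  simp only [curve]
  linear_combination L.derivWeierstrassP_sq z hz / 4

theorem eq_of_add_mem {z w : ℂ} (h : z + w ∈ L.lattice) :
    ℘[L] z = ℘[L] w ∧ ℘'[L] z = -℘'[L] w := by
  have e : z = -w + (⟨z + w, h⟩ : L.lattice) := by simp
  refine ⟨?_, ?_⟩
  · conv_lhs => rw [e, L.weierstrassP_add_coe, L.weierstrassP_neg]
  · conv_lhs => rw [e, L.derivWeierstrassP_add_coe, L.derivWeierstrassP_neg]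

theorem notMem_add_of_ne {z w : ℂ} (h : ℘[L] z ≠ ℘[L] w) : z + w ∉ L.lattice :=
  fun h' => h (eq_of_add_mem L h').1

/-- Addition formula for the abscissa. -/
theorem weierstrassP_add {z w : ℂ} (hz : z ∉ L.lattice) (hw : w ∉ L.lattice)
    (h : ℘[L] z ≠ ℘[L] w) :
    ℘[L] (z + w) =
      (((℘'[L] z - ℘'[L] w) / (℘[L] z - ℘[L] w)) ^ 2) / 4 - ℘[L] z - ℘[L] w := by
  have key : ∀ u, u ∉ L.lattice → u + w ∉ L.lattice → ℘[L] u ≠ ℘[L] w →
      ℘[L] (u + w) ≠ ℘[L] u → ℘[L] (u + w) ≠ ℘[L] w →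
      ℘[L] (u + w) =
        (((℘'[L] u - ℘'[L] w) / (℘[L] u - ℘[L] w)) ^ 2) / 4 - ℘[L] u - ℘[L] w := by
    intro u hu huw h1 h2 h3
    have hdet := collinearDet_eq_zero L hw hu huw
    have e1 := L.derivWeierstrassP_sq u hu
    have e2 := L.derivWeierstrassP_sq w hw
    have e3 := L.derivWeierstrassP_sq (u + w) huw
    unfold collinearDet at hdet
    set A := ℘[L] u
    set B := ℘'[L] u
    set p := ℘[L] w
    set p' := ℘'[L] w
    set P := ℘[L] (u + w)
    set Q := ℘'[L] (u + w)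
    have hAp : A - p ≠ 0 := sub_ne_zero.2 h1
    set M := (B - p') / (A - p) with hM
    have hB : p' = B + M * (p - A) := by
      rw [hM]; field_simp; ring
    have hQ : -Q = B + M * (P - A) := by
      refine mul_left_cancel₀ hAp ?_
      rw [hM]; field_simp
      linear_combination -hdet
    have f1 : (P - A) * (4 * (P ^ 2 + P * A + A ^ 2) - L.g₂ - 2 * B * M - M ^ 2 * (P - A)) = 0 := by
      linear_combination e1 - e3 + (-Q + B + M * (P - A)) * hQ
    have f2 : (p - A) * (4 * (p ^ 2 + p * A + A ^ 2) - L.g₂ - 2 * B * M - M ^ 2 * (p - A)) = 0 := by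
      linear_combination e1 - e2 + (p' + B + M * (p - A)) * hB
    have g1 := (mul_eq_zero.1 f1).resolve_left (sub_ne_zero.2 h2)
    have g2 := (mul_eq_zero.1 f2).resolve_left (sub_ne_zero.2 (Ne.symm h1))
    have g3 : (P - p) * (4 * (P + p + A) - M ^ 2) = 0 := by linear_combination g1 - g2
    have g4 := (mul_eq_zero.1 g3).resolve_left (sub_ne_zero.2 h3)
    linear_combination g4 / 4
  have hzw := notMem_add_of_ne L h
  set s : Set ℂ := L.lattice ∪ (fun u => u - w) '' L.lattice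
  have hs : s.Countable := (LevelOne.lattice_countable L).union
    ((LevelOne.lattice_countable L).image _)
  have hmem : ∀ u, u ∉ s → u ∉ L.lattice ∧ u + w ∉ L.lattice := fun u hu =>
    ⟨fun h => hu (Or.inl h), fun h => hu (Or.inr ⟨u + w, h, by simp⟩)⟩
  have hz' : z ∉ s := by
    rintro (h' | ⟨u, hu, rfl⟩)
    · exact hz h'
    · exact hzw (by simpa using hu)
  have hPw : ∀ u, u + w ∉ L.lattice → AnalyticAt ℂ (fun x => ℘[L] (x + w)) u := fun u hu =>
    (L.analyticOnNhd_weierstrassP _ hu).fun_comp (f := fun x => x + w)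
      (analyticAt_id.add analyticAt_const)
  have hev1 : ∀ᶠ u in 𝓝[≠] z, ℘[L] (u + w) ≠ ℘[L] u := by
    have hg : AnalyticAt ℂ (fun x => ℘[L] (x + w)) 0 := hPw 0 (by simpa using hw)
    obtain ⟨z₁, ⟨h₁, h₂⟩, hne⟩ := (((eventually_notMem L 0).and
      (mem_nhdsWithin_of_mem_nhds ((continuous_add_const w).continuousAt.eventually
        (eventually_compl L (by simpa using hw : (0 : ℂ) + w ∉ L.lattice))))).and
      (eventually_weierstrassP_ne L hg)).exists
    have hz₁ : z₁ ∉ s := by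
      rintro (h' | ⟨u, hu, rfl⟩)
      · exact h₁ h'
      · exact h₂ (by simpa using hu)
    exact (eventually_ne_zero hs (f := fun u => ℘[L] (u + w) - ℘[L] u)
      (fun u hu => (hPw u (hmem u hu).2).sub (L.analyticOnNhd_weierstrassP u (hmem u hu).1))
      hz₁ (sub_ne_zero.2 hne.symm) hz').mono fun u hu h' => hu (sub_eq_zero.2 h')
  have hev2 : ∀ᶠ u in 𝓝[≠] z, ℘[L] (u + w) ≠ ℘[L] w := by
    have hmap : Tendsto (fun u => u + w) (𝓝[≠] z) (𝓝[≠] (z + w)) :=
      tendsto_nhdsWithin_of_tendsto_nhds_of_eventually_within _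
        (((continuous_add_const w).tendsto z).mono_left nhdsWithin_le_nhds)
        (eventually_nhdsWithin_of_forall fun u hu => by simpa using hu)
    exact hmap.eventually (eventually_weierstrassP_ne_const L hzw _)
  have hcP := (L.analyticOnNhd_weierstrassP z hz).continuousAt
  have hcQ := (L.analyticOnNhd_derivWeierstrassP z hz).continuousAt
  have hne : ∀ᶠ u in 𝓝 z, ℘[L] u ≠ ℘[L] w := hcP.eventually_ne h
  refine tendsto_nhds_unique ((hPw z hzw).continuousAt.tendsto.mono_left nhdsWithin_le_nhds)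
    (Tendsto.congr' ?_ ((show ContinuousAt (fun u =>
      (((℘'[L] u - ℘'[L] w) / (℘[L] u - ℘[L] w)) ^ 2) / 4 - ℘[L] u - ℘[L] w) z from
      (((hcQ.sub continuousAt_const).div (hcP.sub continuousAt_const) (sub_ne_zero.2 h)).pow 2
        |>.div_const 4).sub hcP |>.sub continuousAt_const).tendsto.mono_left nhdsWithin_le_nhds)
      : Tendsto _ (𝓝[≠] z) _)
  filter_upwards [hev1, hev2, mem_nhdsWithin_of_mem_nhds hne,
    mem_nhdsWithin_of_mem_nhds (eventually_compl L hz),
    mem_nhdsWithin_of_mem_nhds ((continuous_add_const w).continuousAt.eventually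
      (eventually_compl L hzw))] with u h1 h2 h3 h4 h5
  exact (key u h4 h5 h3 h1 h2).symm

theorem nonsingular_wp (hΔ : (curve L).Δ ≠ 0) {z : ℂ} (hz : z ∉ L.lattice) :
    (curve L).toAffine.Nonsingular (℘[L] z) (℘'[L] z / 2) :=
  (WeierstrassCurve.Affine.equation_iff_nonsingular_of_Δ_ne_zero hΔ).1 (equation_wp L hz)

/-- The point of the cubic attached to a complex number. -/
def pt (hΔ : (curve L).Δ ≠ 0) (z : ℂ) : (curve L).toAffine.Point :=
  if h : z ∈ L.lattice then 0 else .some _ _ (nonsingular_wp L hΔ h)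

variable {L} (hΔ : (curve L).Δ ≠ 0)

theorem pt_of_mem {z : ℂ} (h : z ∈ L.lattice) : pt L hΔ z = 0 := dif_pos h

theorem pt_of_notMem {z : ℂ} (h : z ∉ L.lattice) :
    pt L hΔ z = .some _ _ (nonsingular_wp L hΔ h) := dif_neg h

theorem pt_eq_zero_iff {z : ℂ} : pt L hΔ z = 0 ↔ z ∈ L.lattice := by
  refine ⟨fun h => by_contra fun hz => ?_, pt_of_mem hΔ⟩
  rw [pt_of_notMem hΔ hz] at h
  exact WeierstrassCurve.Affine.Point.some_ne_zero _ h

theorem pt_add_mem {z l : ℂ} (hl : l ∈ L.lattice) : pt L hΔ (z + l) = pt L hΔ z := by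
  by_cases hz : z ∈ L.lattice
  · rw [pt_of_mem hΔ hz, pt_of_mem hΔ (add_mem hz hl)]
  · have hz' : z + l ∉ L.lattice := fun h => hz ((Submodule.add_mem_iff_left _ hl).1 h)
    rw [pt_of_notMem hΔ hz, pt_of_notMem hΔ hz', WeierstrassCurve.Affine.Point.some.injEq]
    exact ⟨L.weierstrassP_add_coe z ⟨l, hl⟩,
      by rw [L.derivWeierstrassP_add_coe z ⟨l, hl⟩]⟩

theorem pt_add_of_ne {z w : ℂ} (hz : z ∉ L.lattice) (hw : w ∉ L.lattice)
    (h : ℘[L] z ≠ ℘[L] w) : pt L hΔ (z + w) = pt L hΔ z + pt L hΔ w := by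
  have hzw := notMem_add_of_ne L h
  rw [pt_of_notMem hΔ hz, pt_of_notMem hΔ hw, pt_of_notMem hΔ hzw,
    WeierstrassCurve.Affine.Point.add_of_X_ne h, WeierstrassCurve.Affine.Point.some.injEq]
  have hP := weierstrassP_add L hz hw h
  have hdet := collinearDet_eq_zero L hw hz hzw
  unfold collinearDet at hdet
  have hne : ℘[L] z - ℘[L] w ≠ 0 := sub_ne_zero.2 h
  simp only [WeierstrassCurve.Affine.addX, WeierstrassCurve.Affine.addY,
    WeierstrassCurve.Affine.negAddY, WeierstrassCurve.Affine.negY,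
    WeierstrassCurve.Affine.slope_of_X_ne h, WeierstrassCurve.toAffine, curve]
  have hx : ℘[L] (z + w) =
      ((℘'[L] z / 2 - ℘'[L] w / 2) / (℘[L] z - ℘[L] w)) ^ 2 +
        0 * ((℘'[L] z / 2 - ℘'[L] w / 2) / (℘[L] z - ℘[L] w)) - 0 - ℘[L] z - ℘[L] w := by
    rw [hP, ← sub_div]
    ring
  refine ⟨hx, ?_⟩
  rw [← hx]
  field_simp
  linear_combination hdet

theorem pt_add_of_ne' {z w : ℂ} (hw : w ∉ L.lattice) (h : z ∈ L.lattice ∨ ℘[L] z ≠ ℘[L] w) :
    pt L hΔ (z + w) = pt L hΔ z + pt L hΔ w := by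
  by_cases hz : z ∈ L.lattice
  · rw [add_comm z w, pt_add_mem hΔ hz, pt_of_mem hΔ hz, zero_add]
  · exact pt_add_of_ne hΔ hz hw (h.resolve_left hz)

theorem pt_add (z w : ℂ) : pt L hΔ (z + w) = pt L hΔ z + pt L hΔ w := by
  obtain ⟨v₀, hv₀, hwv₀⟩ : ∃ v, v ∉ L.lattice ∧ w + v ∉ L.lattice := by
    obtain ⟨v, hv⟩ := ((eventually_notMem L 0).and
      (show ∀ᶠ v in 𝓝[≠] (0 : ℂ), w + v ∉ L.lattice from
        (show Tendsto (fun v => w + v) (𝓝[≠] (0 : ℂ)) (𝓝[≠] w) from
          tendsto_nhdsWithin_of_tendsto_nhds_of_eventually_within _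
            (((continuous_const_add w).tendsto' 0 w (add_zero w)).mono_left nhdsWithin_le_nhds)
            (eventually_nhdsWithin_of_forall fun v hv => by simpa using hv)).eventually
          (eventually_notMem L w))).exists
    exact ⟨v, hv⟩
  have hmap : Tendsto (fun v => w + v) (𝓝[≠] v₀) (𝓝[≠] (w + v₀)) :=
    tendsto_nhdsWithin_of_tendsto_nhds_of_eventually_within _
      (((continuous_const_add w).tendsto v₀).mono_left nhdsWithin_le_nhds)
      (eventually_nhdsWithin_of_forall fun v hv => by simpa using hv)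
  obtain ⟨v, ⟨⟨⟨h1, h2⟩, h3⟩, h4⟩, h5⟩ :=
    (((((eventually_compl L hv₀).filter_mono nhdsWithin_le_nhds).and
      (hmap.eventually ((eventually_compl L hwv₀).filter_mono nhdsWithin_le_nhds))).and
      (eventually_weierstrassP_ne_const L hv₀ (℘[L] (z + w)))).and
      (eventually_weierstrassP_ne_const L hv₀ (℘[L] w))).and
      (hmap.eventually (eventually_weierstrassP_ne_const L hwv₀ (℘[L] z))) |>.exists
  refine add_right_cancel (b := pt L hΔ v) ?_
  rw [← pt_add_of_ne' hΔ h1 (Or.inr h3.symm), add_assoc (pt L hΔ z),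
    ← pt_add_of_ne' hΔ h1 (Or.inr h4.symm), ← pt_add_of_ne' hΔ h2 (Or.inr h5.symm), add_assoc]

/-- The uniformisation. -/
def ptHom : ℂ →+ (curve L).toAffine.Point :=
  AddMonoidHom.mk' (pt L hΔ) (pt_add hΔ)

theorem ptHom_apply (z : ℂ) : ptHom hΔ z = pt L hΔ z := rfl

theorem pt_eq_iff {z w : ℂ} : pt L hΔ z = pt L hΔ w ↔ z - w ∈ L.lattice := by
  rw [← pt_eq_zero_iff hΔ, ← ptHom_apply, ← ptHom_apply, ← ptHom_apply, map_sub, sub_eq_zero]

include hΔ in
theorem weierstrassP_eq_iff {z w : ℂ} (hz : z ∉ L.lattice) (hw : w ∉ L.lattice) :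
    ℘[L] z = ℘[L] w ↔ z - w ∈ L.lattice ∨ z + w ∈ L.lattice := by
  refine ⟨fun h => ?_, ?_⟩
  · rcases WeierstrassCurve.Affine.Y_eq_of_X_eq (equation_wp L hz) (equation_wp L hw) h with
      h' | h'
    · left
      rw [← pt_eq_iff hΔ, pt_of_notMem hΔ hz, pt_of_notMem hΔ hw,
        WeierstrassCurve.Affine.Point.some.injEq]
      exact ⟨h, h'⟩
    · right
      have h'' : pt L hΔ z = -pt L hΔ w := by
        rw [pt_of_notMem hΔ hz, pt_of_notMem hΔ hw, WeierstrassCurve.Affine.Point.neg_some,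
          WeierstrassCurve.Affine.Point.some.injEq]
        exact ⟨h, h'⟩
      rw [← pt_eq_zero_iff hΔ, pt_add, h'', neg_add_cancel]
  · rintro (h | h)
    · have := L.weierstrassP_add_coe w ⟨z - w, h⟩
      simpa using this
    · exact (eq_of_add_mem L h).1

/-! ### Homogeneity and overlattices -/

section Homogeneous

variable {M : PeriodPair} {c : ℂ}

/-- The bijection of lattices given by a dilation. -/
def latticeDilation (hc : c ≠ 0) (h : ∀ x, c * x ∈ M.lattice ↔ x ∈ L.lattice) :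
    L.lattice ≃ M.lattice where
  toFun x := ⟨c * x, (h x).2 x.2⟩
  invFun y := ⟨c⁻¹ * y, (h _).1 (by rw [mul_inv_cancel_left₀ hc]; exact y.2)⟩
  left_inv x := Subtype.ext (inv_mul_cancel_left₀ hc _)
  right_inv y := Subtype.ext (mul_inv_cancel_left₀ hc _)

theorem weierstrassP_dilation (hc : c ≠ 0) (h : ∀ x, c * x ∈ M.lattice ↔ x ∈ L.lattice) (z : ℂ) :
    ℘[M] (c * z) = (c ^ 2)⁻¹ * ℘[L] z := by
  rw [PeriodPair.weierstrassP, PeriodPair.weierstrassP, ← (latticeDilation hc h).tsum_eq,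
    ← tsum_mul_left]
  refine tsum_congr fun x => ?_
  simp only [latticeDilation, Equiv.coe_fn_mk, one_div, ← mul_sub, mul_pow, mul_inv]

theorem derivWeierstrassP_dilation (hc : c ≠ 0) (h : ∀ x, c * x ∈ M.lattice ↔ x ∈ L.lattice)
    (z : ℂ) : ℘'[M] (c * z) = (c ^ 3)⁻¹ * ℘'[L] z := by
  rw [PeriodPair.derivWeierstrassP, PeriodPair.derivWeierstrassP,
    ← (latticeDilation hc h).tsum_eq, mul_neg, ← tsum_mul_left]
  refine congrArg Neg.neg (tsum_congr fun x => ?_)
  simp only [latticeDilation, Equiv.coe_fn_mk, ← mul_sub, mul_pow]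
  rw [div_mul_eq_div_div, div_right_comm, inv_mul_eq_div]

theorem G_dilation (hc : c ≠ 0) (h : ∀ x, c * x ∈ M.lattice ↔ x ∈ L.lattice) (r : ℕ) :
    M.G r = (c ^ r)⁻¹ * L.G r := by
  rw [PeriodPair.G, PeriodPair.G, ← (latticeDilation hc h).tsum_eq, ← tsum_mul_left]
  refine tsum_congr fun x => ?_
  simp only [latticeDilation, Equiv.coe_fn_mk, mul_pow, mul_inv]

end Homogeneous

/-- The Eisenstein sums of an overlattice, split along representatives. -/
theorem G_overlattice {ι : Type*} [Fintype ι] {M : PeriodPair} (c : ι → ℂ)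
    (hle : L.lattice ≤ M.lattice) (hc : ∀ i, c i ∈ M.lattice)
    (hex : ∀ x ∈ M.lattice, ∃ i, x + c i ∈ L.lattice)
    (huniq : ∀ i j, c i - c j ∈ L.lattice → i = j) {r : ℕ} (hr : 2 < r) :
    M.G r = ∑ i, L.sumInvPow (c i) r := by
  let e : ι × L.lattice → M.lattice := fun p => ⟨(p.2 : ℂ) - c p.1, sub_mem (hle p.2.2) (hc p.1)⟩
  have he : Function.Bijective e := by
    refine ⟨fun p q h => ?_, fun x => ?_⟩
    · have h' : (p.2 : ℂ) - c p.1 = q.2 - c q.1 := congrArg Subtype.val h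
      have hi : p.1 = q.1 := huniq _ _ (by
        rw [show c p.1 - c q.1 = (p.2 : ℂ) - q.2 by linear_combination -h']
        exact sub_mem p.2.2 q.2.2)
      refine Prod.ext hi (Subtype.ext ?_)
      rw [hi] at h'
      exact sub_left_inj.1 h'
    · obtain ⟨i, hi⟩ := hex x x.2
      exact ⟨(i, ⟨_, hi⟩), Subtype.ext (add_sub_cancel_right _ _)⟩
  have hsum : Summable fun x : M.lattice => ((x : ℂ) ^ r)⁻¹ := by
    have := (M.hasSum_sumInvPow 0 hr).summable
    simpa using this
  rw [PeriodPair.G, ← (Equiv.ofBijective e he).tsum_eq,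
    (show Summable fun p => ((((Equiv.ofBijective e he) p : M.lattice) : ℂ) ^ r)⁻¹ from
      (Equiv.ofBijective e he).summable_iff.2 hsum).tsum_prod, tsum_fintype]
  exact Finset.sum_congr rfl fun i _ => rfl

/-! ### The lattice `ℤ τ + ℤ` -/

open UpperHalfPlane in
theorem g_tauPair (τ : ℍ) :
    (LevelOne.tauPair τ).g₂ = 4 * Real.pi ^ 4 / 3 * ModularForm.E (by norm_num : 3 ≤ 4) τ ∧
    (LevelOne.tauPair τ).g₃ = 8 * Real.pi ^ 6 / 27 * ModularForm.E (by norm_num : 3 ≤ 6) τ := by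
  have h6 : riemannZeta 6 = (Real.pi : ℂ) ^ 6 / 945 := by
    have h := riemannZeta_two_mul_nat (k := 3) (by norm_num)
    have hb : bernoulli 6 = 1 / 42 := by
      have h5 : bernoulli' 5 = 0 := bernoulli'_eq_zero_of_odd (by decide) (by norm_num)
      rw [bernoulli_eq_bernoulli'_of_ne_one (by norm_num), bernoulli'_def]
      norm_num [Finset.sum_range_succ, Nat.choose, h5]
    norm_num [hb, Nat.factorial] at h
    rw [h]
    ring
  refine ⟨?_, ?_⟩
  · rw [PeriodPair.g₂, LevelOne.G_tauPair (by norm_num), Nat.cast_ofNat, riemannZeta_four]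
    ring
  · rw [PeriodPair.g₃, LevelOne.G_tauPair (by norm_num), Nat.cast_ofNat, h6]
    ring

open UpperHalfPlane ModularForm in
theorem discr_tauPair (τ : ℍ) :
    (LevelOne.tauPair τ).g₂ ^ 3 - 27 * (LevelOne.tauPair τ).g₃ ^ 2 =
      4096 * Real.pi ^ 12 * ModularForm.discriminant τ := by
  rw [(g_tauPair τ).1, (g_tauPair τ).2]
  have h := discriminant_eq_E₄_cube_sub_E₆_sq τ
  linear_combination (-4096 * (Real.pi : ℂ) ^ 12) * h

open UpperHalfPlane in
theorem discr_tauPair_ne_zero (τ : ℍ) :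
    (LevelOne.tauPair τ).g₂ ^ 3 - 27 * (LevelOne.tauPair τ).g₃ ^ 2 ≠ 0 := by
  rw [discr_tauPair]
  exact mul_ne_zero (mul_ne_zero (by norm_num) (pow_ne_zero _ (by simp [Real.pi_ne_zero])))
    (ModularForm.discriminant_ne_zero τ)

theorem Δ_curve (L : PeriodPair) : (curve L).Δ = L.g₂ ^ 3 - 27 * L.g₃ ^ 2 := by
  simp [curve, WeierstrassCurve.Δ, WeierstrassCurve.b₂, WeierstrassCurve.b₄,
    WeierstrassCurve.b₆, WeierstrassCurve.b₈]
  ring

open UpperHalfPlane in
theorem Δ_curve_tauPair (τ : ℍ) : (curve (LevelOne.tauPair τ)).Δ ≠ 0 := by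
  rw [Δ_curve]; exact discr_tauPair_ne_zero τ

open UpperHalfPlane in
/-- The invariant `j` in terms of `g₂` and `g₃`. -/
theorem jFun_eq_g (τ : ℍ) :
    LevelOne.jFun τ = 1728 * (LevelOne.tauPair τ).g₂ ^ 3 /
      ((LevelOne.tauPair τ).g₂ ^ 3 - 27 * (LevelOne.tauPair τ).g₃ ^ 2) := by
  rw [discr_tauPair, (g_tauPair τ).1, LevelOne.jFun,
    show (ModularForm.E₄ τ) = ModularForm.E (by norm_num : 3 ≤ 4) τ from rfl]
  have := ModularForm.discriminant_ne_zero τ
  have : (Real.pi : ℂ) ≠ 0 := by simp [Real.pi_ne_zero]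
  field_simp
  ring

end Fermat.Agent.Carayol.Weier
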