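import Fermat.Agent.Carayol.Bridge.Torsion

/-!
# Weights of meromorphic functions on the upper half plane

Weights of meromorphic functions on the upper half plane, and roots of functions with weight.

Main result: `exists_pow_eq_holHom`.
-/

set_option autoImplicit false

noncomputable section

open Complex Filter Topology
open UpperHalfPlane hiding I
open scoped MatrixGroups PeriodPair Manifold Classical

namespace Fermat.Agent.Carayol

open Weier Fermat.Agent.LevelOne Fermat.Agent.Kummer Fermat.Agent.Kummer.MeroH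
open Fermat.Agent.MFGenus (holSubring holHom holHom_injective)

theorem denomH_mul (γ δ : SL(2, ℤ)) (τ : ℍ) :
    (denomH (γ * δ)).1 τ = (denomH γ).1 (δ • τ) * (denomH δ).1 τ := by
  have hJ := denomH_ne_zero δ τ
  simp only [denomH] at hJ ⊢
  have hnum : ((δ • τ : ℍ) : ℂ) = ((δ 0 0 : ℂ) * τ + δ 0 1) / ((δ 1 0 : ℂ) * τ + δ 1 1) := by
    rw [UpperHalfPlane.coe_specialLinearGroup_apply]
    simp
  have key : ∀ a b e f g h t : ℂ, g * t + h ≠ 0 →
      (a * e + b * g) * t + (a * f + b * h) = (a * ((e * t + f) / (g * t + h)) + b) * (g * t + h) :=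
    fun a b e f g h t ht => by
      set J : ℂ := g * t + h with hJd
      field_simp
      linear_combination -b * hJd
  rw [hnum]
  simp only [Matrix.SpecialLinearGroup.coe_mul, Matrix.mul_apply, Fin.sum_univ_two]
  push_cast
  exact key _ _ _ _ _ _ _ hJ

theorem denomM_mul (γ δ : SL(2, ℤ)) :
    denomM (γ * δ) = slComp δ (denomM γ) * denomM δ := by
  have h : slComp δ (denomM γ) =
      holHom (hDiv (denomH (γ * δ)) (denomH δ) (denomH_ne_zero δ)) := by
    refine slComp_holHom fun τ => ?_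
    simp only [hDiv, Pi.div_apply]
    rw [eq_div_iff (denomH_ne_zero δ τ), denomH_mul]
  rw [h, holHom_hDiv]
  exact (div_mul_cancel₀ _ (denomM_ne_zero δ)).symm

theorem denomM_one : denomM 1 = 1 := by
  have : denomH 1 = 1 := holSubring_ext fun τ => by simp [denomH]
  rw [denomM, this, map_one]

/-- The elements of `SL(2, ℤ)` under which `x` has weight `k`. -/
def weightStab (k : ℕ) (x : MeroH) : Subgroup SL(2, ℤ) where
  carrier := {γ | slComp γ x = denomM γ ^ k * x}
  one_mem' := by simp [denomM_one]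
  mul_mem' := fun {γ δ} hγ hδ => by
    simp only [Set.mem_ofPred_eq] at *
    rw [← slComp_slComp, hγ, map_mul, map_pow, hδ, denomM_mul, mul_pow, mul_assoc]
  inv_mem' := fun {γ} hγ => by
    simp only [Set.mem_ofPred_eq] at *
    have h := congrArg (slComp γ⁻¹) hγ
    rw [slComp_slComp, mul_inv_cancel, slComp_one, map_mul, map_pow] at h
    have h1 := denomM_mul γ γ⁻¹
    rw [mul_inv_cancel, denomM_one] at h1
    conv_rhs => rw [h]
    rw [← mul_assoc, ← mul_pow, mul_comm (denomM γ⁻¹), ← h1, one_pow, one_mul]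

theorem mem_weightStab {k : ℕ} {x : MeroH} {γ : SL(2, ℤ)} :
    γ ∈ weightStab k x ↔ slComp γ x = denomM γ ^ k * x := Iff.rfl

theorem mem_weightStab_zero {x : MeroH} {γ : SL(2, ℤ)} :
    γ ∈ weightStab 0 x ↔ slComp γ x = x := by
  rw [mem_weightStab, pow_zero, one_mul]

theorem mem_weightStab_xM {n : ℕ} [NeZero n] {γ : SL(2, ℤ)} {v : ZMod n × ZMod n}
    (h : rowAct γ v = v) : γ ∈ weightStab 2 (xM n v) := by
  rw [mem_weightStab, slComp_xM, h]

theorem mem_weightStab_yM {n : ℕ} [NeZero n] {γ : SL(2, ℤ)} {v : ZMod n × ZMod n}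
    (h : rowAct γ v = v) : γ ∈ weightStab 3 (yM n v) := by
  rw [mem_weightStab, slComp_yM, h]

/-- A holomorphic function without zeros has an `N`th root in `MeroH`. -/
theorem exists_pow_eq_holHom {f : holSubring} (hf : ∀ τ, f.1 τ ≠ 0) {N : ℕ} (hN : N ≠ 0) :
    ∃ u : MeroH, u ^ N = holHom f := by
  refine exists_pow_eq (holHom_ne_zero UpperHalfPlane.I (hf _)) hN fun z hz => ⟨0, ?_⟩
  have han : AnalyticAt ℂ (f.1 ∘ ofComplex) z :=
    (UpperHalfPlane.mdifferentiable_iff.1 f.2).analyticOnNhd isOpen_uhp z hz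
  have h0 : analyticOrderAt (f.1 ∘ ofComplex) z = 0 :=
    han.analyticOrderAt_eq_zero.2 (hf _)
  change ordAt (ofHol f.1 f.2) z = _
  rw [MFGenus.ofHol_eq_mk f.2 ((UpperHalfPlane.mdifferentiable_iff.1 f.2).analyticOnNhd
    isOpen_uhp).meromorphicOn, ordAt_mk _ hz, han.meromorphicOrderAt_eq, h0]
  simp

/-- If `u ^ N` has weight `N` under `γ`, then `u` has weight `1` under `γ ^ N`. -/
theorem pow_mem_weightStab {u : MeroH} (hu : u ≠ 0) {N : ℕ} [NeZero N] {γ : SL(2, ℤ)}
    (h : γ ∈ weightStab N (u ^ N)) : γ ^ N ∈ weightStab 1 u := by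
  have hJ := denomM_ne_zero γ
  set e := slComp γ u / (denomM γ * u) with he
  have heN : e ^ N = 1 := by
    rw [he, div_pow, mul_pow, ← map_pow, mem_weightStab.1 h]
    exact div_self (mul_ne_zero (pow_ne_zero _ hJ) (pow_ne_zero _ hu))
  have hprim := (Complex.isPrimitiveRoot_exp N (NeZero.ne N)).map_of_injective const_injective
  obtain ⟨i, -, hi⟩ := hprim.eq_pow_of_pow_eq_one heN
  set c := Complex.exp (2 * Real.pi * Complex.I / N) ^ i with hc
  have hec : e = const c := by rw [hc, map_pow, hi]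
  have hstep : slComp γ u = const c * (denomM γ * u) := by
    rw [← hec, he, div_mul_cancel₀ _ (mul_ne_zero hJ hu)]
  have key : ∀ m : ℕ, slComp (γ ^ m) u = const (c ^ m) * (denomM (γ ^ m) * u) := by
    intro m
    induction m with
    | zero => simp [denomM_one]
    | succ m ih =>
      rw [pow_succ, ← slComp_slComp, ih, map_mul, map_mul, slComp_const, hstep, denomM_mul,
        pow_succ, map_mul]
      ring
  have hcN : c ^ N = 1 := const_injective (by rw [map_pow, ← hec, heN, map_one])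
  rw [mem_weightStab, key, hcN, map_one, one_mul, pow_one]

/-- The lower triangular unipotent. -/
def lowerU : SL(2, ℤ) := ⟨!![1, 0; 1, 1], by simp [Matrix.det_fin_two]⟩

theorem coe_lowerU_zpow (m : ℤ) :
    ((lowerU ^ m : SL(2, ℤ)) : Matrix (Fin 2) (Fin 2) ℤ) = !![1, 0; m, 1] := by
  induction m using Int.induction_on with
  | zero => simp [Matrix.one_fin_two]
  | succ i ih =>
    rw [zpow_add_one, Matrix.SpecialLinearGroup.coe_mul, ih]
    simp [lowerU]
  | pred i ih =>
    rw [zpow_sub_one, Matrix.SpecialLinearGroup.coe_mul, ih, Matrix.SpecialLinearGroup.coe_inv,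
      lowerU, Matrix.adjugate_fin_two_of]
    simp
    ring

theorem rowAct_T_zpow {n : ℕ} (m : ℤ) (v : ZMod n × ZMod n) :
    rowAct (ModularGroup.T ^ m) v = (v.1, (m : ZMod n) * v.1 + v.2) := by
  ext <;> simp [rowAct, ModularGroup.coe_T_zpow]

theorem rowAct_lowerU_zpow {n : ℕ} (m : ℤ) (v : ZMod n × ZMod n) :
    rowAct (lowerU ^ m) v = (v.1 + (m : ZMod n) * v.2, v.2) := by
  ext <;> simp [rowAct, coe_lowerU_zpow]

theorem rowAct_eq_self {n : ℕ} (γ : SL(2, ℤ))
    (hγ : γ ∈ Subgroup.zpowers (ModularGroup.T ^ n) ⊔ Subgroup.zpowers (lowerU ^ n))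
    (v : ZMod n × ZMod n) : rowAct γ v = v := by
  suffices h : Subgroup.zpowers (ModularGroup.T ^ n) ⊔ Subgroup.zpowers (lowerU ^ n) ≤
      CongruenceSubgroup.Gamma n by
    obtain ⟨h00, h01, h10, h11⟩ := (CongruenceSubgroup.Gamma_mem).1 (h hγ)
    ext <;> simp [rowAct, h00, h01, h10, h11]
  rw [sup_le_iff, Subgroup.zpowers_le, Subgroup.zpowers_le, CongruenceSubgroup.Gamma_mem,
    CongruenceSubgroup.Gamma_mem]
  have hT := ModularGroup.coe_T_zpow n
  have hL := coe_lowerU_zpow n
  rw [zpow_natCast] at hT hL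
  rw [hT, hL]
  simp

end Fermat.Agent.Carayol
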